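import Fermat.Agent.TWLoc.TwistInertia
import Fermat.Agent.LT.LevelThree.Parabolic

/-!
# An eigen class with nebentypus of conductor `q` has no point unramified at `q`
-/

set_option autoImplicit false

noncomputable section

open IsLocalRing Polynomial CongruenceSubgroup
open Fermat.Agent.TW.Mod Fermat.Agent.TWLoc

namespace Fermat.Agent.R59.TWRam

local notation "GQ" => AlgebraicClosure ℚ ≃ₐ[ℚ] AlgebraicClosure ℚ

/-- A representation unramified at `q` is unipotent on inertia at `q`. -/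
theorem isUnipotentOnInertiaAt_of_isUnramifiedAt {A : Type} [CommRing A] [IsLocalRing A]
    (ρ : GaloisRepAdic A) {q : ℕ} (h : ρ.IsUnramifiedAt q) : ρ.IsUnipotentOnInertiaAt q := by
  intro P hP σ hσ
  rw [h P hP σ hσ, Density.charpoly_fin_two_eq ρ.finrank_eq, LinearMap.trace_one, ρ.finrank_eq,
    map_one, map_one, Nat.cast_ofNat, map_ofNat]
  ring

/-- An eigen class of nebentypus `χ₀²` with `U_q` eigenvalue nonzero and a non-Eisenstein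
eigenvalue at a prime `ℓ₀ ≡ 1` has no point unipotent on inertia at `q`. -/
theorem not_unipotent_of_eigen (h36 : CondLevel.CarayolNotUnipotent) {M N q p : ℕ} [Fact q.Prime]
    [Fact p.Prime] [NeZero N] (hqN : ¬ q ∣ N) (hM : M = N * q) (hp2 : p ≠ 2) (hqp : q ≠ p)
    (χ₀ : (ZMod q)ˣ →* ℂˣ) (hη : ∃ u, χ₀ u ^ 2 ≠ 1) (χ' : (ZMod M)ˣ →* ℂˣ) (hdvd : q ∣ M)
    (hχ' : ∀ u, χ' u = χ₀ (ZMod.unitsMap hdvd u) ^ 2)
    (e : H1 (epsOf χ') ℂ) (he : e ≠ 0) (lam : ℕ → ℂ)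
    (heig : ∀ (l : ℕ) [Fact l.Prime], h1T χ' ℂ l e = lam l • e) (hα : lam q ≠ 0)
    {ℓ₀ : ℕ} [Fact ℓ₀.Prime] (hℓ₀M : ¬ ℓ₀ ∣ M * q) (hℓ₀ : ((M * q : ℕ) : ℤ) ∣ (ℓ₀ : ℤ) - 1)
    (hne₀ : lam ℓ₀ ≠ (ℓ₀ : ℂ) + 1)
    (S : Finset ℕ) (hpS : p ∈ S) (hqS : q ∈ S) (hNS : ∀ l : ℕ, l.Prime → l ∣ N → l ∈ S)
    {O : Type} [CommRing O] [IsDomain O] [IsDiscreteValuationRing O]
    [IsAdicComplete (maximalIdeal O) O] [Finite (ResidueField O)] [CharZero O]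
    (hpO : (p : O) ∈ maximalIdeal O) (R : Subring ℂ) (θ : R →+* O)
    (hR : ∀ l : ℕ, l.Prime → l ∉ S → twistedLam χ₀ lam l ∈ R)
    (ρ : GaloisRepAdic O) (hirr : ρ.residual.IsIrreducible) (hodd : ρ.residual.IsOdd)
    (hρ : ∀ (l : ℕ) (hl : l.Prime) (hlS : l ∉ S),
      ∀ A : ValuationSubring (AlgebraicClosure ℚ), A.LiesOverPrime l →
        ∀ σ : GQ, A.IsFrobeniusAt σ l →
          LinearMap.charpoly (ρ.ρ σ) = X ^ 2 - C (θ ⟨_, hR l hl hlS⟩) * X + C (l : O))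
    : ¬ ρ.IsUnipotentOnInertiaAt q := by
  subst hM
  have : Fact (¬ q ∣ N) := ⟨hqN⟩
  obtain rfl : χ' = sqTwistChar N χ₀ := MonoidHom.ext fun u => by
    rw [hχ', sqTwistChar_apply]
  induction e using Submodule.Quotient.induction_on with
  | _ c =>
    have hne : ∀ b : ℂ, c ≠ cobound _ ℂ b := fun b hb => he (by
      rw [Submodule.Quotient.mk_eq_zero]
      exact ⟨b, hb.symm⟩)
    have hderT : ∀ (l : ℕ) [Fact l.Prime], ∃ b : ℂ, derT (sqTwistChar N χ₀) ℂ l c =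
        lam l • c + cobound (epsOf (sqTwistChar N χ₀)) ℂ b := fun l _ => by
      have h := heig l
      rw [h1T_mk, ← Submodule.Quotient.mk_smul, Submodule.Quotient.eq] at h
      obtain ⟨b, hb⟩ := h
      exact ⟨b, by rw [hb]; abel⟩
    have hc : IsEigenClass χ₀ c lam := fun l _ _ => hderT l
    refine not_isUnipotentOnInertiaAt_of_twist h36 hη hne hc hα (hderT q) ?_ hp2 hqp S hpS hqS
      hNS hpO R θ hR ρ hirr hodd hρ
    -- parabolicity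
    have hℓq : ℓ₀ ≠ q := fun h => hℓ₀M (by rw [h]; exact dvd_mul_left q _)
    have hlam : twistedLam χ₀ lam ℓ₀ = lam ℓ₀ := by
      have h1 : ((ℓ₀ : ℕ) : ZMod q) = ((1 : (ZMod q)ˣ) : ZMod q) := by
        have h2 : (q : ℤ) ∣ (ℓ₀ : ℤ) - 1 :=
          (Int.natCast_dvd_natCast.2 (dvd_mul_left q (N * q))).trans hℓ₀
        rw [← ZMod.intCast_zmod_eq_zero_iff_dvd] at h2
        push_cast at h2
        rw [Units.val_one]
        exact sub_eq_zero.1 h2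
      rw [twistedLam, h1, extChar_coe, map_one, Units.val_one, one_mul]
    have h2 : ∀ x : ℂ, x + x = 0 → x = 0 := fun x hx => add_self_eq_zero.1 hx
    have hmem := LT.LevelThree.heckeHom_sub_mem_parabolicHoms (R := ℂ) (A := ℂ)
      (M := N * q * q) (ℓ := ℓ₀) hℓ₀M hℓ₀ h2 (twistHom N χ₀ ℂ c)
    rw [heckeHom_twistHom hc ℓ₀ hℓq, hlam, ← Nat.cast_smul_eq_nsmul ℂ (1 + ℓ₀), ← sub_smul] at hmem
    refine (Submodule.smul_mem_iff _ (sub_ne_zero.2 ?_)).1 hmem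
    push_cast
    rwa [add_comm (1 : ℂ)]

/-- An eigen class of nebentypus `χ₀²` with `U_q` eigenvalue nonzero and a non-Eisenstein
eigenvalue at a prime `ℓ₀ ≡ 1` has no point unramified at `q`. -/
theorem false_of_eigen (h36 : CondLevel.CarayolNotUnipotent) {M N q p : ℕ} [Fact q.Prime]
    [Fact p.Prime] [NeZero N] (hqN : ¬ q ∣ N) (hM : M = N * q) (hp2 : p ≠ 2) (hqp : q ≠ p)
    (χ₀ : (ZMod q)ˣ →* ℂˣ) (hη : ∃ u, χ₀ u ^ 2 ≠ 1) (χ' : (ZMod M)ˣ →* ℂˣ) (hdvd : q ∣ M)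
    (hχ' : ∀ u, χ' u = χ₀ (ZMod.unitsMap hdvd u) ^ 2)
    (e : H1 (epsOf χ') ℂ) (he : e ≠ 0) (lam : ℕ → ℂ)
    (heig : ∀ (l : ℕ) [Fact l.Prime], h1T χ' ℂ l e = lam l • e) (hα : lam q ≠ 0)
    {ℓ₀ : ℕ} [Fact ℓ₀.Prime] (hℓ₀M : ¬ ℓ₀ ∣ M * q) (hℓ₀ : ((M * q : ℕ) : ℤ) ∣ (ℓ₀ : ℤ) - 1)
    (hne₀ : lam ℓ₀ ≠ (ℓ₀ : ℂ) + 1)
    (S : Finset ℕ) (hpS : p ∈ S) (hqS : q ∈ S) (hNS : ∀ l : ℕ, l.Prime → l ∣ N → l ∈ S)
    {O : Type} [CommRing O] [IsDomain O] [IsDiscreteValuationRing O]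
    [IsAdicComplete (maximalIdeal O) O] [Finite (ResidueField O)] [CharZero O]
    (hpO : (p : O) ∈ maximalIdeal O) (R : Subring ℂ) (θ : R →+* O)
    (hR : ∀ l : ℕ, l.Prime → l ∉ S → twistedLam χ₀ lam l ∈ R)
    (ρ : GaloisRepAdic O) (hirr : ρ.residual.IsIrreducible) (hodd : ρ.residual.IsOdd)
    (hρ : ∀ (l : ℕ) (hl : l.Prime) (hlS : l ∉ S),
      ∀ A : ValuationSubring (AlgebraicClosure ℚ), A.LiesOverPrime l →
        ∀ σ : GQ, A.IsFrobeniusAt σ l →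
          LinearMap.charpoly (ρ.ρ σ) = X ^ 2 - C (θ ⟨_, hR l hl hlS⟩) * X + C (l : O))
    (hun : ρ.IsUnramifiedAt q) : False :=
  not_unipotent_of_eigen h36 hqN hM hp2 hqp χ₀ hη χ' hdvd hχ' e he lam heig hα hℓ₀M hℓ₀ hne₀ S hpS hqS hNS hpO R θ
    hR ρ hirr hodd hρ (isUnipotentOnInertiaAt_of_isUnramifiedAt ρ hun)

end Fermat.Agent.R59.TWRam
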