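import Fermat.Agent.R59.TWRamified.Detect

/-!
# The character of the local Hecke algebra on a fixed eigen class
-/

set_option autoImplicit false
set_option synthInstance.maxHeartbeats 400000

noncomputable section

open IsLocalRing CongruenceSubgroup CuspForm Fermat.Agent.TW.Mod

namespace Fermat.Agent.R59.TWRam

section Generators

variable {N : ℕ} [NeZero N] {S : Set ℕ} {O : Type} [CommRing O] [IsDomain O]
  [IsDiscreteValuationRing O] [IsAdicComplete (maximalIdeal O) O]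
  {θ : heckeAlgebra N 2 S →+* ResidueField O} {T : Type} [CommRing T] [IsLocalRing T]
  [IsNoetherianRing T] [IsAdicComplete (maximalIdeal T) T] [Algebra O T]
  [IsLocalHom (algebraMap O T)] [Module.Finite O T] [Module.Free O T]

/-- The local Hecke algebra is generated by the `T_ℓ`. -/
theorem forall_map_mem {E : Type} [Ring E] [Algebra O E] (H : HeckeGaloisRepDatum N S O θ T)
    (Ψ : T →ₐ[O] E) (B : Subalgebra O E) (hSN : ∀ q : ℕ, q.Prime → q ∣ N → q ∈ S)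
    (hB : ∀ (ℓ : ℕ) (hℓ : ℓ.Prime) (hℓN : ¬ ℓ ∣ N) (hℓS : ℓ ∉ S),
      Ψ (H.π (heckeAlgebra.T hℓ hℓN hℓS)) ∈ B) (a : T) : Ψ a ∈ B := by
  suffices hπ : ∀ t, H.π t ∈ B.comap Ψ by
    have hle : Algebra.adjoin O (Set.range H.π) ≤ B.comap Ψ :=
      Algebra.adjoin_le (by rintro _ ⟨t, rfl⟩; exact hπ t)
    rw [H.adjoin_range_π] at hle
    exact hle Algebra.mem_top
  rintro ⟨t, ht⟩
  show Ψ _ ∈ B
  induction ht using Algebra.adjoin_induction with
  | mem x hx =>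
    rcases hx with ⟨ℓ, hℓ, hℓN, hℓS, rfl⟩ | ⟨q, hqN, hq, hqS, rfl⟩
    · exact hB ℓ hℓ hℓN hℓS
    · exact absurd (hSN q hq hqN) hqS
  | algebraMap n =>
    rw [show (⟨algebraMap ℤ _ n, Subalgebra.algebraMap_mem _ n⟩ : ↥(heckeAlgebra N 2 S)) =
      (n : ↥(heckeAlgebra N 2 S)) from Subtype.ext (by simp), map_intCast, map_intCast]
    exact intCast_mem B n
  | add x y hx hy ihx ihy =>
    rw [show (⟨x + y, Subalgebra.add_mem _ hx hy⟩ : ↥(heckeAlgebra N 2 S)) = ⟨x, hx⟩ + ⟨y, hy⟩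
      from rfl, map_add, map_add]
    exact add_mem ihx ihy
  | mul x y hx hy ihx ihy =>
    rw [show (⟨x * y, Subalgebra.mul_mem _ hx hy⟩ : ↥(heckeAlgebra N 2 S)) = ⟨x, hx⟩ * ⟨y, hy⟩
      from rfl, map_mul, map_mul]
    exact mul_mem ihx ihy

end Generators

section Core

variable {O R A : Type} [CommRing O] [CommRing R] [Algebra O R] [CommRing A] [Algebra O A]
  {X : Type} [AddCommGroup X] [Module R X] [Module O X] [IsScalarTower O R X]
  {V : Type} [AddCommGroup V] [Module ℂ V] [FiniteDimensional ℂ V] {κ : Type}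
  (ψ : R →+* ℂ) (P : X →+ V) (hP : ∀ (a : R) x, P (a • x) = ψ a • P x)
  (F : κ → Module.End ℂ V)

/-- A common eigenvector in a stable span turns partners into a character. -/
theorem exists_scalar_hom (hF : ∀ i j, Commute (F i) (F j)) (Ψ : A →ₐ[O] Module.End R X)
    (hΨ : ∀ a, Ψ a ∈ partnerAlg (O := O) ψ P hP (Algebra.adjoin ℂ (Set.range F)))
    (G : Set X) {x : X} (hxG : x ∈ G) (hx : P x ≠ 0)
    (hG : ∀ j, ∀ y ∈ G, ∃ y' ∈ G, P y' = F j (P y)) :
    ∃ (e : V) (μ : κ → ℂ) (φ : A →+* ℂ), e ≠ 0 ∧ e ∈ Submodule.span ℂ (P '' G) ∧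
      (∀ j, F j e = μ j • e) ∧
      ∀ a (f : Module.End ℂ V) (c : ℂ), (∀ y, P (Ψ a y) = f (P y)) → f e = c • e → φ a = c := by
  classical
  have hne : Submodule.span ℂ (P '' G) ≠ ⊥ := fun h0 => hx <| by
    have hmem : P x ∈ Submodule.span ℂ (P '' G) := Submodule.subset_span ⟨x, hxG, rfl⟩
    rwa [h0, Submodule.mem_bot] at hmem
  have hstable : ∀ j, ∀ v ∈ Submodule.span ℂ (P '' G), F j v ∈ Submodule.span ℂ (P '' G) := by
    intro j v hv
    induction hv using Submodule.span_induction with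
    | mem v hv =>
      obtain ⟨y, hy, rfl⟩ := hv
      obtain ⟨y', hy', e⟩ := hG j y hy
      exact e ▸ Submodule.subset_span ⟨y', hy', rfl⟩
    | zero => rw [map_zero]; exact zero_mem _
    | add a b _ _ ha hb => rw [map_add]; exact add_mem ha hb
    | smul c a _ ha => rw [map_smul]; exact Submodule.smul_mem _ c ha
  obtain ⟨e, heG, he0, hev⟩ := exists_common_eigenvector F hF hne hstable
  choose μ hμ using hev
  choose Fp hFp hFP using fun a => (mem_partnerAlg ψ P hP _).1 (hΨ a)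
  choose φ hφ using fun a => exists_scalar_of_mem_adjoin (v := e)
    (fun f hf => by obtain ⟨l, rfl⟩ := hf; exact ⟨μ l, hμ l⟩) (hFp a)
  have huniq : ∀ a (f : Module.End ℂ V) (c : ℂ),
      (∀ y, P (Ψ a y) = f (P y)) → f e = c • e → φ a = c := fun a f c hf hc => by
    refine smul_left_injective ℂ he0 ?_
    show φ a • e = c • e
    rw [← hφ, ← hc]
    refine LinearMap.eqOn_span ?_ heG
    rintro _ ⟨y, -, rfl⟩
    exact (hFP a y).symm.trans (hf y)
  refine ⟨e, μ, { toFun := φ, map_one' := ?_, map_mul' := fun a b => ?_, map_zero' := ?_,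
                  map_add' := fun a b => ?_ }, he0, heG, hμ, huniq⟩
  · exact huniq 1 1 1 (fun y => by rw [map_one]; rfl) (by rw [Module.End.one_apply, one_smul])
  · exact huniq _ (Fp a * Fp b) _
      (fun y => by rw [map_mul, Module.End.mul_apply, Module.End.mul_apply, hFP, hFP])
      (by rw [Module.End.mul_apply, hφ b, map_smul, hφ a, smul_smul, mul_comm])
  · exact huniq 0 0 0
      (fun y => by rw [map_zero, LinearMap.zero_apply, LinearMap.zero_apply, map_zero])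
      (by rw [LinearMap.zero_apply, zero_smul])
  · exact huniq _ (Fp a + Fp b) _
      (fun y => by rw [map_add, LinearMap.add_apply, map_add, hFP, hFP, LinearMap.add_apply])
      (by rw [LinearMap.add_apply, hφ a, hφ b, add_smul])

omit [FiniteDimensional ℂ V] in
/-- An operator with a partner which fixes the spanning classes is one on the vector. -/
theorem eq_one_of_fixed {A' : Type} (Ψ : A' → Module.End R X) {G : Set X} {e : V}
    (he : e ∈ Submodule.span ℂ (P '' G)) {a : A'} {f : Module.End ℂ V}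
    (hf : ∀ y, P (Ψ a y) = f (P y)) (hfix : ∀ y ∈ G, P (Ψ a y) = P y) : f e = e := by
  refine (LinearMap.eqOn_span (g := (LinearMap.id : V →ₗ[ℂ] V)) ?_ he)
  rintro _ ⟨y, hy, rfl⟩
  exact (hf y).symm.trans (hfix y hy)

end Core

variable {W : WeierstrassCurve ℤ} {p : ℕ} {k : Kind} {U : Setup W p k} [NeZero p] {m r : ℕ}
  (T : TWPrimes U m r) [NeZero T.level] (hadm : TW.Mod.Admissible (epsOf T.chi))
  (hM : Occurs U.𝒪 (heckeFam U.𝒪 T.level (↑(minSet W p) : Set ℕ))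
    (raiseLam T.primes T.α (TWPrimes.lam (U := U))))

/-- All Hecke operators preserve the module. -/
theorem h1T_mem_twMod (l : ℕ) [Fact l.Prime] {x : H1 (epsOf T.chi) (TWAlg U.𝒪 p m r)}
    (hx : x ∈ T.twMod hadm hM) : h1T T.chi (TWAlg U.𝒪 p m r) l x ∈ T.twMod hadm hM := by
  have := finite_end_h1 (𝒪 := U.𝒪) hadm
  have hmem : twIdem hadm T.twAug_chi hM ∈
      Subalgebra.centralizer U.𝒪 ({h1T T.chi (TWAlg U.𝒪 p m r) l} :
        Set (Module.End (TWAlg U.𝒪 p m r) (H1 (epsOf T.chi) (TWAlg U.𝒪 p m r)))) := by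
    refine (Algebra.adjoin_le ?_ :
      famAlg U.𝒪 (twFam T.chi (↑(minSet W p) : Set ℕ)) ≤ _) (Occurs.idem_mem _ _)
    rintro _ ⟨j, rfl⟩
    rw [SetLike.mem_coe, Subalgebra.mem_centralizer_iff]
    rintro _ rfl
    exact LinearMap.ext fun y => h1T_comm T.chi l j.1 y
  rw [Subalgebra.mem_centralizer_iff] at hmem
  obtain ⟨y, rfl⟩ := hx
  exact ⟨h1T T.chi (TWAlg U.𝒪 p m r) l y, (LinearMap.congr_fun (hmem _ rfl) y).symm⟩

/-- A Hecke operator on the module. -/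
def modOp (l : Nat.Primes) : Module.End (TWAlg U.𝒪 p m r) (T.twMod hadm hM) :=
  haveI := Fact.mk l.2
  (h1T T.chi (TWAlg U.𝒪 p m r) l.1).restrict fun _ hx => h1T_mem_twMod T hadm hM l.1 hx

theorem modOp_comm (l l' : Nat.Primes) :
    Commute (modOp T hadm hM l) (modOp T hadm hM l') := by
  have := Fact.mk l.2
  have := Fact.mk l'.2
  exact LinearMap.ext fun x => Subtype.ext (h1T_comm T.chi l.1 l'.1 _)

theorem twOp_eq_modOp (j : PrimeIdx (↑(minSet W p) : Set ℕ)) :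
    T.twOp hadm hM j = modOp T hadm hM ⟨j.1, j.2.1⟩ := rfl

variable (ι : U.𝒪 →+* ℂ) (i : Fin r) {ζ : ℂ} (hζ : IsPrimitiveRoot ζ p) (hm : 0 < m)

/-- The Hecke operators over `ℂ`. -/
def complexOp (l : Nat.Primes) :
    Module.End ℂ (H1 (epsOf (pushChar T.chi (ramChar ι i hζ hm))) ℂ) :=
  haveI := Fact.mk l.2
  h1T (pushChar T.chi (ramChar ι i hζ hm)) ℂ l.1

omit [NeZero T.level] in
theorem complexOp_comm (l l' : Nat.Primes) :
    Commute (complexOp T ι i hζ hm l) (complexOp T ι i hζ hm l') := by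
  have := Fact.mk l.2
  have := Fact.mk l'.2
  exact LinearMap.ext fun x => h1T_comm _ l.1 l'.1 x

omit [NeZero T.level] in
include hadm in
theorem admissible_push :
    TW.Mod.Admissible (epsOf (pushChar T.chi (ramChar ι i hζ hm))) where
  neg_one_mem := hadm.neg_one_mem
  trivial_of_finOrder g hg := Units.ext (by
    rw [coe_epsOf_pushChar, hadm.trivial_of_finOrder g hg]; simp)

include hadm in
theorem finiteDimensional_push :
    FiniteDimensional ℂ (H1 (epsOf (pushChar T.chi (ramChar ι i hζ hm))) ℂ) := by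
  have := (admissible_push T hadm ι i hζ hm).finite_der (A := ℂ)
  exact Module.Finite.quotient ℂ _

/-- Classes of the module pushed to `ℂ`. -/
def pushMod : T.twMod hadm hM →+ H1 (epsOf (pushChar T.chi (ramChar ι i hζ hm))) ℂ :=
  (pushH1 T.chi (ramChar ι i hζ hm)).comp (T.twMod hadm hM).subtype.toAddMonoidHom

theorem pushMod_smul (a : TWAlg U.𝒪 p m r) (x : T.twMod hadm hM) :
    pushMod T hadm hM ι i hζ hm (a • x) = ramChar ι i hζ hm a • pushMod T hadm hM ι i hζ hm x :=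
  pushH1_smul ..

theorem pushMod_modOp (l : Nat.Primes) (x : T.twMod hadm hM) :
    pushMod T hadm hM ι i hζ hm (modOp T hadm hM l x) =
      complexOp T ι i hζ hm l (pushMod T hadm hM ι i hζ hm x) := by
  have := Fact.mk l.2
  exact pushH1_h1T T.chi _ l.1 _

theorem pushMod_eq_zero_of_mem (hp : 1 < p) {x : T.twMod hadm hM}
    (hx : x ∈ ramI U.𝒪 p m r i • (⊤ : Submodule (TWAlg U.𝒪 p m r) (T.twMod hadm hM))) :
    pushMod T hadm hM ι i hζ hm x = 0 := by
  refine Submodule.smul_induction_on hx (fun a ha y _ => ?_) fun y z hy hz => ?_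
  · rw [pushMod_smul, RingHom.mem_ker.1 (ramI_le_ker ι i hζ hm hp ha), zero_smul]
  · rw [map_add, hy, hz, add_zero]

/-- `U_q` has a left inverse on the pushed classes. -/
theorem exists_uq_inverse :
    ∃ Fv ∈ Algebra.adjoin ℂ (Set.range (complexOp T ι i hζ hm)), ∀ y : T.twMod hadm hM,
      (Fv * complexOp T ι i hζ hm ⟨T.qv i, T.prime i⟩) (pushMod T hadm hM ι i hζ hm y) =
        pushMod T hadm hM ι i hζ hm y := by
  have := finite_end_h1 (𝒪 := U.𝒪) hadm
  have hα : raiseLam T.primes T.α (TWPrimes.lam (U := U)) (qIdx T i) ≠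
      algebraMap U.𝒪 (ResidueField U.𝒪) 0 := by
    show (if T.qv i ∈ T.primes then T.α (T.qv i) else _) ≠ _
    rw [if_pos (mem_primes T i), map_zero]
    intro h0
    have := T.α_root i
    rw [h0] at this
    simp at this
  obtain ⟨-, v, hv, hv1⟩ := (occurs_twFam hadm T.twAug_chi hM).exists_inv_sub_algebraMap
    (twFam_comm T.chi _) (qIdx T i) 0 hα
  have hvP : v ∈ partnerAlg (O := U.𝒪) (ramChar ι i hζ hm) (pushH1 T.chi (ramChar ι i hζ hm))
      (pushH1_smul T.chi (ramChar ι i hζ hm))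
      (Algebra.adjoin ℂ (Set.range (complexOp T ι i hζ hm))) := by
    refine (Algebra.adjoin_le ?_ :
      famAlg U.𝒪 (twFam T.chi (↑(minSet W p) : Set ℕ)) ≤ _) hv
    rintro _ ⟨j, rfl⟩
    exact ⟨complexOp T ι i hζ hm ⟨j.1, j.2.1⟩, Algebra.subset_adjoin ⟨_, rfl⟩, fun z =>
      pushH1_h1T T.chi (ramChar ι i hζ hm) j.1 z⟩
  obtain ⟨Fv, hFv, hvF⟩ := hvP
  refine ⟨Fv, hFv, fun y => ?_⟩
  have hy := (mem_range_iff_of_idem (twIdem_mul_self hadm T.twAug_chi hM)).1 y.2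
  have h1 : v (h1T T.chi (TWAlg U.𝒪 p m r) (qIdx T i).1
      (y : H1 (epsOf T.chi) (TWAlg U.𝒪 p m r))) = y := by
    have h2 := LinearMap.congr_fun hv1 (y : H1 (epsOf T.chi) (TWAlg U.𝒪 p m r))
    rw [map_zero, sub_zero, Module.End.mul_apply, Module.End.mul_apply] at h2
    rw [show (occurs_twFam hadm T.twAug_chi hM).idem (twFam_comm T.chi _) =
      twIdem hadm T.twAug_chi hM from rfl, hy] at h2
    exact h2
  have h3 := congrArg (pushH1 T.chi (ramChar ι i hζ hm)) h1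
  rw [hvF, pushH1_h1T] at h3
  exact h3

variable {N : ℕ} [NeZero N] [Fact (CuspForm.HasIntegralStructure N 2)]
  {θ : ↥(heckeAlgebra N 2 (↑(badSet T) : Set ℕ)) →+* ResidueField U.𝒪}
  (H : HeckeGaloisRepDatum N (↑(badSet T) : Set ℕ) U.𝒪 θ
    (heckeLocal N (↑(badSet T) : Set ℕ) U.𝒪 θ))

set_option maxHeartbeats 1600000 in
/-- A fixed class gives an eigen class with a character of the local Hecke algebra. -/
theorem exists_eigen (hp : p.Prime) (hSN : ∀ l : ℕ, l.Prime → l ∣ N → l ∈ badSet T)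
    (Ψ : heckeLocal N (↑(badSet T) : Set ℕ) U.𝒪 θ →ₐ[U.𝒪]
      Module.End (TWAlg U.𝒪 p m r) (T.twMod hadm hM))
    (hΨ : ∀ (ℓ : ℕ) (hℓ : ℓ.Prime) (hℓN : ¬ ℓ ∣ N) (hℓS : ℓ ∉ (↑(badSet T) : Set ℕ)),
      Ψ (H.π (heckeAlgebra.T hℓ hℓN hℓS)) = T.untwistedOp hadm hM
        (primeIdxOf (A := ramPrimes W p) (B := T.primes) (Finset.Subset.refl _) hℓ hℓS))
    (a₀ : heckeLocal N (↑(badSet T) : Set ℕ) U.𝒪 θ) (x : T.twMod hadm hM)
    (hfix : Ψ a₀ x - x ∈
      ramI U.𝒪 p m r i • (⊤ : Submodule (TWAlg U.𝒪 p m r) (T.twMod hadm hM)))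
    (hx : pushMod T hadm hM ι i hζ hm x ≠ 0) :
    ∃ (e : H1 (epsOf (pushChar T.chi (ramChar ι i hζ hm))) ℂ) (lam : ℕ → ℂ)
      (φ : heckeLocal N (↑(badSet T) : Set ℕ) U.𝒪 θ →+* ℂ),
      e ≠ 0 ∧
      (∀ (l : ℕ) [Fact l.Prime],
        h1T (pushChar T.chi (ramChar ι i hζ hm)) ℂ l e = lam l • e) ∧
      (∀ a : U.𝒪, φ (algebraMap U.𝒪 _ a) = ι a) ∧
      (∀ (ℓ : ℕ) (hℓ : ℓ.Prime) (hℓN : ¬ ℓ ∣ N) (hℓS : ℓ ∉ (↑(badSet T) : Set ℕ)),
        φ (H.π (heckeAlgebra.T hℓ hℓN hℓS)) =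
          (haveI := Fact.mk (T.prime i);
            extChar (chiZ T ι i hζ hm)⁻¹ (ℓ : ZMod (T.qv i))) * lam ℓ) ∧
      φ a₀ = 1 ∧ lam (T.qv i) ≠ 0 := by
  classical
  have hS : ∀ q : ℕ, q.Prime → q ∣ N → q ∈ (↑(badSet T) : Set ℕ) := fun q hq hd =>
    Finset.mem_coe.2 (hSN q hq hd)
  have hpart : ∀ a, Ψ a ∈ partnerAlg (O := U.𝒪) (ramChar ι i hζ hm)
      (pushMod T hadm hM ι i hζ hm) (pushMod_smul T hadm hM ι i hζ hm)
      (Algebra.adjoin ℂ (Set.range (complexOp T ι i hζ hm))) := fun a => by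
    refine forall_map_mem (E := Module.End (TWAlg U.𝒪 p m r) (T.twMod hadm hM)) H Ψ _ hS ?_ a
    intro ℓ hℓ hℓN hℓS
    rw [hΨ, TWPrimes.untwistedOp, twOp_eq_modOp]
    refine smul_mem_partnerAlg _ _ _ _ ((mem_partnerAlg _ _ _ _).2 ⟨complexOp T ι i hζ hm
      (⟨ℓ, hℓ⟩ : Nat.Primes), Algebra.subset_adjoin (Set.mem_range_self _), fun y => ?_⟩) _
    exact pushMod_modOp T hadm hM ι i hζ hm ⟨ℓ, hℓ⟩ y
  have hcomm : ∀ a l, Commute (Ψ a) (modOp T hadm hM l) := fun a l => by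
    have h : Ψ a ∈ Subalgebra.centralizer U.𝒪 ({modOp T hadm hM l} :
        Set (Module.End (TWAlg U.𝒪 p m r) (T.twMod hadm hM))) := by
      refine forall_map_mem (E := Module.End (TWAlg U.𝒪 p m r) (T.twMod hadm hM)) H Ψ _ hS ?_ a
      intro ℓ hℓ hℓN hℓS
      rw [hΨ, TWPrimes.untwistedOp, twOp_eq_modOp, Subalgebra.mem_centralizer_iff]
      rintro _ rfl
      exact ((modOp_comm T hadm hM l _).smul_right _).eq
    exact ((Subalgebra.mem_centralizer_iff _).1 h _ rfl).symm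
  have := finiteDimensional_push T hadm ι i hζ hm
  obtain ⟨e, μ, φ, he0, heG, hμ, huniq⟩ := exists_scalar_hom (ramChar ι i hζ hm)
    (pushMod T hadm hM ι i hζ hm) (pushMod_smul T hadm hM ι i hζ hm) (complexOp T ι i hζ hm)
    (complexOp_comm T ι i hζ hm) Ψ hpart
    {y | Ψ a₀ y - y ∈ ramI U.𝒪 p m r i • (⊤ : Submodule (TWAlg U.𝒪 p m r) (T.twMod hadm hM))}
    (x := x) hfix hx fun l y hy => by
      refine ⟨modOp T hadm hM l y, ?_, pushMod_modOp T hadm hM ι i hζ hm l y⟩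
      rw [Set.mem_ofPred_eq] at hy ⊢
      rw [← Module.End.mul_apply, (hcomm a₀ l).eq, Module.End.mul_apply, ← map_sub]
      exact Submodule.smul_mono le_rfl le_top
        (Submodule.map_smul'' (ramI U.𝒪 p m r i) ⊤ (modOp T hadm hM l) ▸
          Submodule.mem_map_of_mem hy)
  let lam : ℕ → ℂ := fun l => if hl : l.Prime then μ ⟨l, hl⟩ else 0
  refine ⟨e, lam, φ, he0, fun l hl => ?_, fun a => ?_, fun ℓ hℓ hℓN hℓS => ?_, ?_, ?_⟩
  · simp only [lam, dif_pos hl.out]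
    exact hμ ⟨l, hl.out⟩
  · refine huniq _ (ι a • 1) _ (fun y => ?_) (by rw [LinearMap.smul_apply, Module.End.one_apply])
    rw [AlgHom.commutes, Module.algebraMap_end_apply, LinearMap.smul_apply, Module.End.one_apply,
      ← IsScalarTower.algebraMap_smul (TWAlg U.𝒪 p m r) a y, pushMod_smul, ramChar_algebraMap]
  · have hlev : ¬ ℓ ∣ T.level := fun h =>
      hℓS (Finset.mem_coe.2 (mem_badSet_of_dvd_level T hp hℓ h))
    rw [← ramChar_chiPrime_eta_inv T ι i hζ hm hℓ hlev]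
    refine huniq _ (ramChar ι i hζ hm ((chiPrime T.eta ℓ)⁻¹ : (TWAlg U.𝒪 p m r)ˣ) •
      complexOp T ι i hζ hm ⟨ℓ, hℓ⟩) _ (fun y => ?_) ?_
    · rw [hΨ, TWPrimes.untwistedOp, LinearMap.smul_apply, LinearMap.smul_apply, pushMod_smul,
        twOp_eq_modOp]
      exact congrArg (ramChar ι i hζ hm ((chiPrime T.eta ℓ)⁻¹ : (TWAlg U.𝒪 p m r)ˣ) • ·)
        (pushMod_modOp T hadm hM ι i hζ hm ⟨ℓ, hℓ⟩ y)
    · have h1 : lam ℓ = μ ⟨ℓ, hℓ⟩ := dif_pos hℓ
      rw [LinearMap.smul_apply, h1, ← smul_smul]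
      exact congrArg (ramChar ι i hζ hm ((chiPrime T.eta ℓ)⁻¹ : (TWAlg U.𝒪 p m r)ˣ) • ·)
        (hμ ⟨ℓ, hℓ⟩)
  · obtain ⟨f, -, hf⟩ := (mem_partnerAlg _ _ _ _).1 (hpart a₀)
    refine huniq _ f 1 hf ?_
    rw [one_smul]
    refine eq_one_of_fixed _ (fun a => Ψ a) heG hf fun y hy => ?_
    rw [← sub_eq_zero, ← map_sub]
    exact pushMod_eq_zero_of_mem T hadm hM ι i hζ hm hp.one_lt hy
  · -- `U_q` is invertible on the module
    obtain ⟨Fv, hFv, hone⟩ := exists_uq_inverse T hadm hM ι i hζ hm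
    obtain ⟨c, hc⟩ := exists_scalar_of_mem_adjoin (v := e)
      (fun f hf => by obtain ⟨l, rfl⟩ := hf; exact ⟨μ l, hμ l⟩) hFv
    have h1 : (Fv * complexOp T ι i hζ hm ⟨T.qv i, T.prime i⟩) e = e := by
      refine LinearMap.eqOn_span (g := (LinearMap.id : _ →ₗ[ℂ] _)) ?_ heG
      rintro _ ⟨y, -, rfl⟩
      exact hone y
    have h2 : Fv (μ ⟨T.qv i, T.prime i⟩ • e) = e := (congrArg Fv (hμ ⟨T.qv i, T.prime i⟩)).symm.trans h1
    rw [map_smul, hc, smul_smul] at h2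
    intro hl0
    simp only [lam, dif_pos (T.prime i)] at hl0
    rw [hl0, zero_mul, zero_smul] at h2
    exact he0 h2.symm

end Fermat.Agent.R59.TWRam
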