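import Fermat.Agent.CondLevel.Cyclo
import Fermat.Agent.Density.Qbar
import Fermat.Agent.Density.Rep
import Fermat.Agent.LR.NonEisenstein
import Fermat.Prelude.Def_GaloisRep_LocalConditions

/-!
# Primes `ℓ ≡ 1 (mod n)` at which an absolutely irreducible representation is not Eisenstein

Also: a cyclotomic determinant is residually odd.
-/

set_option autoImplicit false

noncomputable section

open IsLocalRing Polynomial

namespace Fermat.Agent.R59.TWRam

local notation "GQ" => AlgebraicClosure ℚ ≃ₐ[ℚ] AlgebraicClosure ℚ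

/-- An irreducible plane over an algebraically closed field has no normal subgroup with abelian
quotient acting unipotently. -/
theorem false_of_unipotent_normal {K : Type*} [Field K] [IsAlgClosed K] {V : Type*}
    [AddCommGroup V] [Module K V] (hV : Module.finrank K V = 2) {G : Type*} [Group G]
    (ρ : G →* Module.End K V) (H : Subgroup G) [H.Normal]
    (hcomm : ∀ g g' : G, g'⁻¹ * g⁻¹ * g' * g ∈ H) (hu : ∀ h ∈ H, (ρ h - 1) ^ 2 = 0)
    (hirr : ∀ W : Submodule K V, (∀ g, ∀ x ∈ W, ρ g x ∈ W) → W = ⊥ ∨ W = ⊤) : False := by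
  have : FiniteDimensional K V := FiniteDimensional.of_finrank_pos (by omega)
  have hntr : Nontrivial V := Module.nontrivial_of_finrank_pos (R := K) (by omega)
  -- the fixed space of `H`
  let W : Submodule K V := ⨅ h ∈ H, LinearMap.ker (ρ h - 1)
  have hW : ∀ x, x ∈ W ↔ ∀ h ∈ H, ρ h x = x := fun x => by
    simp [W, Submodule.mem_iInf, sub_eq_zero]
  have hstable : ∀ g, ∀ x ∈ W, ρ g x ∈ W := fun g x hx => by
    rw [hW] at hx ⊢
    intro h hh
    have hmem : g⁻¹ * h * g ∈ H := by
      simpa using Subgroup.Normal.conj_mem (inferInstance : H.Normal) h hh g⁻¹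
    rw [← Module.End.mul_apply, ← map_mul, show h * g = g * (g⁻¹ * h * g) by group, map_mul,
      Module.End.mul_apply, hx _ hmem]
  have hne : W ≠ ⊥ := by
    obtain ⟨L, hL0, hLtop, hL⟩ := LR.exists_stable_of_forall_fixed hV (ρ.comp H.subtype) fun h => by
      by_contra hcon
      push Not at hcon
      have hinj : Function.Injective (ρ (h : G) - 1 : Module.End K V) := by
        rw [← LinearMap.ker_eq_bot, Submodule.eq_bot_iff]
        intro v hv
        by_contra hv0
        exact hcon v hv0 (sub_eq_zero.mp hv)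
      obtain ⟨v, hv⟩ := exists_ne (0 : V)
      refine hv (hinj (hinj ?_))
      rw [← Module.End.mul_apply, ← sq, hu _ h.2]
      simp
    obtain ⟨v, hvL, hv⟩ := (Submodule.ne_bot_iff L).1 hL0
    have hL1 : L = K ∙ v := by
      refine (Submodule.eq_of_le_of_finrank_le
        ((Submodule.span_singleton_le_iff_mem v L).2 hvL) ?_).symm
      rw [finrank_span_singleton hv]
      have := Submodule.finrank_lt hLtop
      omega
    refine (Submodule.ne_bot_iff W).2 ⟨v, (hW v).2 fun h hh => ?_, hv⟩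
    have hmem := hL ⟨h, hh⟩ v hvL
    rw [hL1, Submodule.mem_span_singleton] at hmem
    obtain ⟨a, ha⟩ := hmem
    have hav : ρ h v = a • v := ha.symm
    have h2 : (ρ h - 1) ^ 2 = 0 := hu h hh
    have h3 : (ρ h - 1) v = (a - 1) • v := by
      rw [LinearMap.sub_apply, hav, Module.End.one_apply, sub_smul, one_smul]
    have e : ((a - 1) * (a - 1)) • v = 0 := by
      have h2v := LinearMap.congr_fun h2 v
      rw [sq, Module.End.mul_apply, h3, map_smul, h3, smul_smul] at h2v
      exact h2v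
    have ha1 : a = 1 := sub_eq_zero.mp (mul_self_eq_zero.mp ((smul_eq_zero.mp e).resolve_right hv))
    rw [hav, ha1, one_smul]
  have htriv : ∀ h ∈ H, ρ h = 1 := fun h hh => LinearMap.ext fun x =>
    (hW x).1 (((hirr W hstable).resolve_left hne).symm ▸ Submodule.mem_top) h hh
  have hc : ∀ g g', ρ g * ρ g' = ρ g' * ρ g := fun g g' => by
    rw [← map_mul, ← map_mul, show g' * g = (g * g') * (g'⁻¹ * g⁻¹ * g' * g) by group,
      map_mul ρ (g * g'), htriv _ (hcomm g g'), mul_one]
  have hscal : ∀ g, ∃ c : K, ∀ x, ρ g x = c • x := fun g => by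
    obtain ⟨c, hcev⟩ := Module.End.exists_eigenvalue (ρ g)
    have hE : Module.End.eigenspace (ρ g) c = ⊤ := (hirr _ fun g' x hx => by
      rw [Module.End.mem_eigenspace_iff] at hx ⊢
      rw [← Module.End.mul_apply, hc, Module.End.mul_apply, hx, map_smul]).resolve_left hcev
    exact ⟨c, fun x => Module.End.mem_eigenspace_iff.1 (hE.symm ▸ Submodule.mem_top)⟩
  obtain ⟨v, hv⟩ := exists_ne (0 : V)
  rcases hirr (K ∙ v) (fun g x hx => by
    obtain ⟨c, hcg⟩ := hscal g
    rw [hcg]
    exact Submodule.smul_mem _ _ hx) with h | h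
  · exact hv (Submodule.span_singleton_eq_bot.1 h)
  · have := finrank_span_singleton (K := K) hv
    rw [h, finrank_top, hV] at this
    omega

/-- A plane endomorphism of trace `2` and determinant `1` is unipotent. -/
theorem sub_one_sq_eq_zero {k : Type*} [Field k] {V : Type*} [AddCommGroup V] [Module k V]
    (hV : Module.finrank k V = 2) (f : Module.End k V) (ht : LinearMap.trace k V f = 2)
    (hd : LinearMap.det f = 1) : (f - 1) ^ 2 = 0 := by
  have : FiniteDimensional k V := FiniteDimensional.of_finrank_pos (by omega)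
  have h := LinearMap.aeval_self_charpoly f
  rw [Density.charpoly_fin_two_eq hV, ht, hd] at h
  rw [← h]
  simp [map_ofNat, sq]
  noncomm_ring

/-- A unipotent element of level two stays so under powers. -/
theorem pow_sub_one_sq {R : Type*} [Ring R] {a : R} (h : (a - 1) ^ 2 = 0) (n : ℕ) :
    (a ^ n - 1) ^ 2 = 0 := by
  have hc : Commute (∑ i ∈ Finset.range n, a ^ i) (a - 1) :=
    Commute.sum_left _ _ _ fun i _ => ((Commute.refl a).pow_left i).sub_right (Commute.one_right _)
  rw [← geom_sum_mul, hc.mul_pow, h, mul_zero]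

/-- An absolutely irreducible representation with determinant trivial on the `p`-th roots of unity
has non-Eisenstein primes `ℓ ≡ 1 (mod n)`. -/
theorem exists_frobenius_one_mod_trace_ne {k : Type} [Field k] (ρ : ResidualGaloisRep k)
    (habs : ρ.IsAbsolutelyIrreducible) (p : ℕ)
    (hdet : ∀ σ : GQ, (∀ μ : AlgebraicClosure ℚ, μ ^ p = 1 → σ μ = μ) →
      LinearMap.det (ρ.ρ σ) = 1)
    (n : ℕ) [NeZero n] (hpn : p ∣ n) (S : Finset ℕ) :
    ∃ ℓ : ℕ, ℓ.Prime ∧ ℓ ∉ S ∧ ¬ ℓ ∣ n ∧ (n : ℤ) ∣ (ℓ : ℤ) - 1 ∧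
      ∃ A : ValuationSubring (AlgebraicClosure ℚ), A.LiesOverPrime ℓ ∧
        ∃ σ : GQ, A.IsFrobeniusAt σ ℓ ∧ LinearMap.trace k ρ.V (ρ.ρ σ) ≠ 2 := by
  classical
  by_contra hcon
  push Not at hcon
  let χ : GQ →* (ZMod n)ˣ := (CondLevel.zetaN_spec n).autToPow ℚ
  have hker : ∀ σ : GQ, σ ∈ χ.ker ↔ σ (CondLevel.zetaN n) = CondLevel.zetaN n := by
    intro σ
    have hs := (CondLevel.zetaN_spec n).autToPow_spec ℚ σ
    rw [MonoidHom.mem_ker]
    constructor
    · intro h
      rw [← hs, show (CondLevel.zetaN_spec n).autToPow ℚ σ = 1 from h, Units.val_one]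
      rcases eq_or_ne n 1 with h1 | h1
      · have h1' := (CondLevel.zetaN_spec n).pow_eq_one
        subst h1
        rw [pow_one] at h1'
        simp [h1']
      · have : Fact (1 < n) := ⟨lt_of_le_of_ne (NeZero.pos n) h1.symm⟩
        rw [ZMod.val_one, pow_one]
    · intro h
      refine Units.ext ?_
      exact (CondLevel.cycChar_eq_natCast n (σ := σ) (a := 1) (by rw [pow_one]; exact h)).trans
        (by simp)
  have hu : ∀ h ∈ χ.ker, (ρ.ρ h - 1) ^ 2 = 0 := by
    intro g hg
    obtain ⟨F, hF, hlev⟩ := ρ.factorsThroughFiniteLevel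
    let ω := CondLevel.zetaN n
    let L₀ : IntermediateField ℚ (AlgebraicClosure ℚ) := F ⊔ IntermediateField.adjoin ℚ {ω}
    have : FiniteDimensional ℚ F := hF
    have : FiniteDimensional ℚ (IntermediateField.adjoin ℚ ({ω} : Set (AlgebraicClosure ℚ))) :=
      IntermediateField.adjoin.finiteDimensional (Algebra.IsIntegral.isIntegral ω)
    let L := IntermediateField.normalClosure ℚ L₀ (AlgebraicClosure ℚ)
    have : Normal ℚ L := normalClosure.normal ℚ _ _
    obtain ⟨ℓ, hℓ, hℓS, A, hA, σ, hσ, hz⟩ :=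
      Density.exists_frobenius_zpowers_restrictNormal L g (S ∪ n.primeFactors)
    rw [Finset.mem_union, not_or] at hℓS
    have hℓn : ¬ ℓ ∣ n := fun hd =>
      hℓS.2 (Nat.mem_primeFactors.mpr ⟨hℓ, hd, NeZero.ne n⟩)
    have hres : ∀ a b : GQ, a.restrictNormal L = b.restrictNormal L → ∀ x ∈ L, a x = b x :=
      fun a b h x hx => by
        have h1 := AlgEquiv.restrictNormal_commutes a L ⟨x, hx⟩
        rw [h, AlgEquiv.restrictNormal_commutes] at h1
        exact h1.symm
    have hmemL : ∀ x ∈ L₀, x ∈ L := fun x hx => IntermediateField.le_normalClosure L₀ hx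
    have hωL : ω ∈ L := hmemL ω ((le_sup_right : IntermediateField.adjoin ℚ {ω} ≤ L₀)
      (IntermediateField.mem_adjoin_simple_self ℚ ω))
    -- `σ` fixes `ω`
    obtain ⟨j, hj⟩ := mem_powers_iff_mem_zpowers.mpr
      (hz ▸ Subgroup.mem_zpowers (σ.restrictNormal L) :
        σ.restrictNormal L ∈ Subgroup.zpowers (g.restrictNormal L))
    obtain ⟨i, hi⟩ := mem_powers_iff_mem_zpowers.mpr
      (hz ▸ Subgroup.mem_zpowers (g.restrictNormal L) :
        g.restrictNormal L ∈ Subgroup.zpowers (σ.restrictNormal L))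
    have hgj : ∀ x ∈ L, (g ^ j) x = σ x := hres _ _ (by
      show AlgEquiv.restrictNormalHom L (g ^ j) = _
      rw [map_pow]
      exact hj)
    have hσi : ∀ x ∈ L, (σ ^ i) x = g x := hres _ _ (by
      show AlgEquiv.restrictNormalHom L (σ ^ i) = _
      rw [map_pow]
      exact hi)
    have hσω : σ ω = ω := by
      rw [← hgj ω hωL]
      exact (hker _).1 (pow_mem hg j)
    have hℓ1 : (n : ℤ) ∣ (ℓ : ℤ) - 1 := by
      rw [← ZMod.intCast_zmod_eq_zero_iff_dvd]
      push_cast
      have h1 : CondLevel.cycChar n σ = ((1 : ℕ) : ZMod n) :=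
        CondLevel.cycChar_eq_natCast n (by rw [pow_one]; exact hσω)
      rw [← CondLevel.cycChar_frobenius n hℓ hℓn hA hσ, h1, Nat.cast_one, sub_self]
    have hd : LinearMap.det (ρ.ρ σ) = 1 := hdet σ fun μ hμ => by
      obtain ⟨d, rfl⟩ := hpn
      obtain ⟨e, -, he⟩ := (CondLevel.zetaN_spec (p * d)).eq_pow_of_pow_eq_one (ξ := μ)
        (by rw [pow_mul, hμ, one_pow])
      rw [← he, map_pow, hσω]
    have h2 := pow_sub_one_sq (sub_one_sq_eq_zero ρ.finrank_eq _
      (hcon ℓ hℓ hℓS.1 hℓn hℓ1 A hA σ hσ) hd) i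
    rw [← map_pow] at h2
    have e : ρ.ρ ((σ ^ i)⁻¹ * g) = 1 := hlev _ fun x hx => by
      rw [AlgEquiv.mul_apply, ← hσi x (hmemL x ((le_sup_left : F ≤ L₀) hx))]
      exact (σ ^ i).symm_apply_apply x
    rwa [show g = σ ^ i * ((σ ^ i)⁻¹ * g) from (mul_inv_cancel_left _ _).symm, map_mul, e, mul_one]
  refine false_of_unipotent_normal (ρ.baseChange (AlgebraicClosure k)).finrank_eq
    (ρ.baseChange (AlgebraicClosure k)).ρ χ.ker (fun g g' => ?_) (fun h hh => ?_)
    (fun W hW => habs W hW)
  · rw [MonoidHom.mem_ker]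
    simp only [map_mul, map_inv]
    rw [mul_comm ((χ g')⁻¹), mul_assoc ((χ g)⁻¹), inv_mul_cancel, mul_one, inv_mul_cancel]
  · show ((ρ.ρ h).baseChange (AlgebraicClosure k) - 1) ^ 2 = 0
    have := congrArg (Module.End.baseChangeHom k (AlgebraicClosure k) ρ.V) (hu h hh)
    rw [map_pow, map_sub, map_one, map_zero] at this
    exact this

/-- A cyclotomic determinant is residually trivial on elements fixing the `p`-th roots of unity. -/
theorem residual_det_eq_natCast {A : Type} [CommRing A] [IsLocalRing A] (ρ : GaloisRepAdic A)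
    {p : ℕ} (h : ρ.DetIsCyclotomic p) (σ : GQ) (a : ℕ)
    (ha : ∀ μ : AlgebraicClosure ℚ, μ ^ p = 1 → σ μ = μ ^ a) :
    LinearMap.det (ρ.residual.ρ σ) = (a : ResidueField A) := by
  have h1 := h.2 1 σ a (fun μ hμ => ha μ (by rwa [pow_one] at hμ))
  have h2 : LinearMap.det (ρ.ρ σ) - (a : A) ∈ maximalIdeal A := by
    refine Ideal.span_le.2 ?_ h1
    rw [pow_one, Set.singleton_subset_iff]
    exact h.1
  rw [← residue_eq_zero_iff, map_sub, map_natCast, sub_eq_zero] at h2
  show LinearMap.det ((ρ.ρ σ).baseChange (ResidueField A)) = _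
  rw [LinearMap.det_baseChange]
  exact h2

/-- A cyclotomic determinant is residually odd. -/
theorem residual_isOdd {A : Type} [CommRing A] [IsLocalRing A] (ρ : GaloisRepAdic A) {p : ℕ}
    [Fact p.Prime] (hp2 : p ≠ 2) (h : ρ.DetIsCyclotomic p) : ρ.residual.IsOdd := by
  intro c hcc hne
  have hp : p.Prime := Fact.out
  have h0 : ((p : ℕ) : ResidueField A) = 0 := by
    rw [← map_natCast (residue A), residue_eq_zero_iff]
    exact h.1
  rw [residual_det_eq_natCast ρ h c (p - 1) fun μ hμ => ?_, Nat.cast_sub hp.one_le, h0,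
    Nat.cast_one, zero_sub]
  obtain ⟨e, -, rfl⟩ := (CondLevel.zetaN_spec p).eq_pow_of_pow_eq_one hμ
  rw [map_pow, ← pow_mul, mul_comm, pow_mul]
  congr 1
  rw [CondLevel.apply_zetaN p c, CondLevel.cycChar_involution hp2 hcc hne]
  have : NeZero p := ⟨hp.ne_zero⟩
  obtain ⟨m, rfl⟩ : ∃ m, p = m + 1 := ⟨p - 1, (Nat.succ_pred_eq_of_pos hp.pos).symm⟩
  rw [ZMod.val_neg_one, Nat.add_sub_cancel]

/-- An absolutely irreducible representation is irreducible. -/
theorem isIrreducible_of_absIrr {k : Type} [Field k] (ρ : ResidualGaloisRep k)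
    (habs : ρ.IsAbsolutelyIrreducible) : ρ.IsIrreducible := by
  intro W hW
  rcases habs (W.baseChange (AlgebraicClosure k)) (fun σ x hx => by
    rw [Submodule.baseChange_eq_span] at hx ⊢
    induction hx using Submodule.span_induction with
    | mem y hy =>
      obtain ⟨w, hw, rfl⟩ := hy
      exact Submodule.subset_span ⟨ρ.ρ σ w, hW σ w hw, rfl⟩
    | zero => rw [map_zero]; exact zero_mem _
    | add a b _ _ ha hb => rw [map_add]; exact add_mem ha hb
    | smul c a _ ha => rw [map_smul]; exact Submodule.smul_mem _ c ha) with h | h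
  · left
    rw [Submodule.eq_bot_iff]
    intro w hw
    have h1 : (1 : AlgebraicClosure k) ⊗ₜ[k] w ∈ W.baseChange (AlgebraicClosure k) :=
      Submodule.tmul_mem_baseChange_of_mem 1 hw
    rw [h, Submodule.mem_bot] at h1
    exact (Module.FaithfullyFlat.one_tmul_eq_zero_iff (R := k) (A := AlgebraicClosure k) (M := ρ.V) (m := w)).1 h1
  · right
    by_contra hne
    obtain ⟨f, hf0, hf⟩ := Submodule.exists_le_ker_of_lt_top W (lt_top_iff_ne_top.2 hne)
    refine hf0 (LinearMap.ext fun v => ?_)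
    have h1 : W.baseChange (AlgebraicClosure k) ≤
        LinearMap.ker (f.baseChange (AlgebraicClosure k)) := by
      rw [Submodule.baseChange_eq_span, Submodule.span_le]
      rintro _ ⟨w, hw, rfl⟩
      have h2 : f w = 0 := hf hw
      simp [h2]
    rw [h] at h1
    have h2 := h1 (Submodule.mem_top : (1 : AlgebraicClosure k) ⊗ₜ[k] v ∈ ⊤)
    rw [LinearMap.mem_ker, LinearMap.baseChange_tmul] at h2
    have h3 := congrArg (TensorProduct.rid k (AlgebraicClosure k)) h2
    simpa using h3

end Fermat.Agent.R59.TWRam
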