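import Fermat.Agent.R59.TWRamified.Embedding
import Fermat.Agent.R59.TWRamified.PrimeOne
import Fermat.Agent.R59.TWRamified.Contra
import Fermat.Agent.R59.TWRamified.Eigen
import Fermat.Agent.R59.CotGrowth.Main
import Fermat.Agent.R59.Final
import Fermat.Agent.Tangent.Conditions
import Mathlib.RingTheory.Ideal.AssociatedPrime.Localization

/-!
# Points of an algebra acting on twisted classes are not unipotent on inertia at `q`

`not_isUnipotentOnInertiaAt_of_point`: a finite algebra acting faithfully on a free, Hecke stable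
lattice of classes with nebentypus `χ²` at `q`, with a representation whose Frobenius traces act as
`χ(ℓ)⁻¹ T_ℓ`, has no point unipotent on inertia at `q` (given Carayol's theorem).
-/

set_option autoImplicit false
set_option synthInstance.maxHeartbeats 400000

noncomputable section

open IsLocalRing Polynomial CongruenceSubgroup Fermat.Agent.TW.Mod

namespace Fermat.Agent.R59.TWRam

local notation "GQ" => AlgebraicClosure ℚ ≃ₐ[ℚ] AlgebraicClosure ℚ

section Algebra

/-- The kernel of a point of a finite algebra annihilates exactly some vector of a faithful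
module. -/
theorem exists_annihilator_eq_ker {O T O₂ X : Type} [CommRing O] [IsDomain O] [IsNoetherianRing O]
    [CommRing T] [Algebra O T] [Module.Finite O T] [CommRing O₂] [IsDomain O₂] [Algebra O O₂]
    (hinj : Function.Injective (algebraMap O O₂)) (ψ : T →ₐ[O] O₂) [AddCommGroup X] [Module O X]
    [Module.Finite O X] (Ψ : T →ₐ[O] Module.End O X) (hΨ : Function.Injective Ψ) :
    ∃ x : X, ∀ a : T, Ψ a x = 0 ↔ ψ a = 0 := by
  have : IsNoetherianRing T := isNoetherian_of_tower O (isNoetherian_of_isNoetherianRing_of_finite O T)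
  let P : Ideal T := RingHom.ker ψ.toRingHom
  have : P.IsPrime := RingHom.ker_isPrime _
  let _ : Module T X := Module.compHom X Ψ.toRingHom
  have hsmul : ∀ (a : T) (x : X), a • x = Ψ a x := fun _ _ => rfl
  have : IsScalarTower O T X := ⟨fun c a x => by
    rw [hsmul, hsmul, map_smul, LinearMap.smul_apply]⟩
  have : Module.Finite T X := Module.Finite.of_restrictScalars_finite O T X
  have hann : Module.annihilator T X = ⊥ := (Submodule.eq_bot_iff _).2 fun a ha => hΨ <| by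
    rw [map_zero]
    exact LinearMap.ext fun x => Module.mem_annihilator.1 ha x
  have hmin : P ∈ (Module.annihilator T X).minimalPrimes := by
    rw [hann]
    refine ⟨⟨‹_›, bot_le⟩, fun Q hQ hQP => ?_⟩
    have := hQ.1
    by_contra hle
    obtain hlt : Q < P := lt_of_le_not_ge hQP hle
    have h1 := Ideal.IsIntegral.comap_lt_comap (R := O) hlt
    have h2 : P.comap (algebraMap O T) = ⊥ := (Submodule.eq_bot_iff _).2 fun c hc => hinj <| by
      rw [map_zero, ← ψ.commutes]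
      exact RingHom.mem_ker.1 (Ideal.mem_comap.1 hc)
    exact not_lt_bot (h2 ▸ h1)
  obtain ⟨-, x, hx⟩ := (isAssociatedPrime_iff (R := T) (M := X)).1
    (Module.associatedPrimes.minimalPrimes_annihilator_subset_associatedPrimes T X hmin)
  refine ⟨x, fun a => ?_⟩
  have h : a ∈ P ↔ a • x = 0 := by rw [hx]; simp [Submodule.mem_colon_singleton]
  rw [← hsmul, ← h]
  exact RingHom.mem_ker

/-- An operator injective on a free lattice has nonzero eigenvalue on every pushed eigenvector. -/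
theorem eigen_ne_zero_of_injective {O X V : Type} [CommRing O] [IsDomain O] [AddCommGroup X]
    [Module O X] [Module.Free O X] [Module.Finite O X] [AddCommGroup V] [Module ℂ V] {ι : O →+* ℂ}
    (hι : Function.Injective ι) (P : X →+ V) (hP : ∀ (c : O) x, P (c • x) = ι c • P x)
    {f : Module.End O X} (hf : Function.Injective f) {F : Module.End ℂ V}
    (hfF : ∀ x, P (f x) = F (P x)) {e : V} (he0 : e ≠ 0)
    (he : e ∈ Submodule.span ℂ (Set.range P)) {μ : ℂ} (hμ : F e = μ • e) : μ ≠ 0 := by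
  intro h0
  set Q := f.charpoly with hQ
  have hc : Q.coeff 0 ≠ 0 := by
    intro hc0
    have hdet := LinearMap.det_eq_sign_charpoly_coeff f
    rw [← hQ, hc0, mul_zero] at hdet
    exact (LinearMap.bot_lt_ker_of_det_eq_zero hdet).ne' (LinearMap.ker_eq_bot.2 hf)
  have hmem : f ∈ partnerAlg (O := O) ι P hP (Algebra.adjoin ℂ {F}) :=
    ⟨F, Algebra.subset_adjoin rfl, hfF⟩
  have hg : aeval f Q.divX ∈ partnerAlg (O := O) ι P hP (Algebra.adjoin ℂ {F}) :=
    (Algebra.adjoin_le (Set.singleton_subset_iff.2 hmem))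
      (Polynomial.aeval_mem_adjoin_singleton O f)
  obtain ⟨G, hG, hgG⟩ := hg
  obtain ⟨g, hge⟩ := exists_scalar_of_mem_adjoin (v := e)
    (fun h hh => ⟨μ, by rw [Set.mem_singleton_iff.1 hh]; exact hμ⟩) hG
  have hsplit : ∀ x, f (aeval f Q.divX x) + Q.coeff 0 • x = 0 := fun x => by
    have h := LinearMap.aeval_self_charpoly f
    rw [← hQ, ← Polynomial.X_mul_divX_add Q, map_add, map_mul, aeval_X, aeval_C] at h
    simpa [Module.algebraMap_end_apply] using LinearMap.congr_fun h x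
  have key : (F * G + ι (Q.coeff 0) • 1) e = 0 := by
    refine LinearMap.eqOn_span (g := (0 : V →ₗ[ℂ] V)) ?_ he
    rintro _ ⟨x, rfl⟩
    show F (G (P x)) + ι (Q.coeff 0) • P x = 0
    rw [← hgG, ← hfF, ← hP, ← map_add, hsplit, map_zero]
  rw [LinearMap.add_apply, Module.End.mul_apply, hge, map_smul, hμ, h0, zero_smul, smul_zero,
    zero_add, LinearMap.smul_apply, Module.End.one_apply] at key
  exact hc (hι (((smul_eq_zero.1 key).resolve_right he0).trans (map_zero ι).symm))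

/-- A variant for `f - c`. -/
theorem eigen_ne_of_injective {O X V : Type} [CommRing O] [IsDomain O] [AddCommGroup X]
    [Module O X] [Module.Free O X] [Module.Finite O X] [AddCommGroup V] [Module ℂ V] {ι : O →+* ℂ}
    (hι : Function.Injective ι) (P : X →+ V) (hP : ∀ (c : O) x, P (c • x) = ι c • P x)
    {f : Module.End O X} {c : O} (hf : ∀ x, f x = c • x → x = 0) {F : Module.End ℂ V}
    (hfF : ∀ x, P (f x) = F (P x)) {e : V} (he0 : e ≠ 0)
    (he : e ∈ Submodule.span ℂ (Set.range P)) {μ : ℂ} (hμ : F e = μ • e) : μ ≠ ι c := by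
  refine fun h => eigen_ne_zero_of_injective hι P hP (f := f - c • 1) (F := F - ι c • 1)
    (μ := μ - ι c) ?_ (fun x => ?_) he0 he ?_ (sub_eq_zero.2 h)
  · refine LinearMap.ker_eq_bot.1 ((Submodule.eq_bot_iff _).2 fun x hx => hf x ?_)
    exact sub_eq_zero.1 (LinearMap.mem_ker.1 hx)
  · rw [LinearMap.sub_apply, LinearMap.smul_apply, map_sub, Module.End.one_apply, hP,
      LinearMap.sub_apply, LinearMap.smul_apply, Module.End.one_apply, hfF]
  · rw [LinearMap.sub_apply, LinearMap.smul_apply, Module.End.one_apply, hμ, sub_smul]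

/-- A point of an algebra acting faithfully on a lattice gives an eigenvector over `ℂ` and a
character of the subalgebra of `traces` with the same kernel. -/
theorem exists_scalar_point {O T O₂ X V κ : Type} [CommRing O] [IsDomain O] [IsNoetherianRing O]
    [CommRing T] [Algebra O T] [Module.Finite O T] [CommRing O₂] [IsDomain O₂] [Algebra O O₂]
    [AddCommGroup X] [Module O X] [Module.Finite O X] [AddCommGroup V] [Module ℂ V]
    [FiniteDimensional ℂ V] (hinj : Function.Injective (algebraMap O O₂)) {ι : O →+* ℂ}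
    (hι : Function.Injective ι) (P : X →+ V) (hP : ∀ (c : O) x, P (c • x) = ι c • P x)
    (hPinj : ∀ x, P x = 0 → x = 0) (F : κ → Module.End ℂ V) (hF : ∀ i j, Commute (F i) (F j))
    (op : κ → Module.End O X) (hop : ∀ j x, P (op j x) = F j (P x))
    (Ψ : T →ₐ[O] Module.End O X) (hΨ : Function.Injective Ψ)
    (hcomm : ∀ j a x, op j (Ψ a x) = Ψ a (op j x)) (traces : Set T)
    (htraces : ∀ t ∈ traces, ∃ f ∈ Algebra.adjoin ℂ (Set.range F), ∀ y, P (Ψ t y) = f (P y))
    (ψ : T →ₐ[O] O₂) :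
    ∃ (e : V) (μ : κ → ℂ) (φ : Algebra.adjoin O traces →+* ℂ), e ≠ 0 ∧
      e ∈ Submodule.span ℂ (Set.range P) ∧ (∀ j, F j e = μ j • e) ∧
      (∀ a : Algebra.adjoin O traces, φ a = 0 → ψ (a : T) = 0) ∧
      ∀ (a : Algebra.adjoin O traces) (f : Module.End ℂ V) (c : ℂ),
        (∀ y, P (Ψ a y) = f (P y)) → f e = c • e → φ a = c := by
  obtain ⟨x, hx⟩ := exists_annihilator_eq_ker hinj ψ Ψ hΨ
  have hx0 : P x ≠ 0 := fun h => one_ne_zero (α := O₂) (by
    rw [← map_one ψ]
    exact (hx 1).1 (by rw [hPinj x h, map_zero]))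
  have hpart : ∀ a : Algebra.adjoin O traces, (Ψ.comp (Algebra.adjoin O traces).val) a ∈
      partnerAlg (O := O) ι P hP (Algebra.adjoin ℂ (Set.range F)) := fun a =>
    (Algebra.adjoin_le (S := (partnerAlg (O := O) ι P hP
      (Algebra.adjoin ℂ (Set.range F))).comap Ψ) fun t ht =>
        (mem_partnerAlg (O := O) (R := O) ι P hP _).2 (htraces t ht)) a.2
  obtain ⟨e, μ, φ, he0, heG, hμ, huniq⟩ := exists_scalar_hom ι P hP F hF
    (Ψ.comp (Algebra.adjoin O traces).val) hpart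
    {y | ∀ a : T, ψ a = 0 → Ψ a y = 0} (x := x) (fun a => (hx a).2) hx0 fun j y hy =>
      ⟨op j y, fun a ha => by rw [← hcomm, hy a ha, map_zero], hop j y⟩
  refine ⟨e, μ, φ, he0, Submodule.span_mono (Set.image_subset_range _ _) heG, hμ, ?_, huniq⟩
  have hle : RingHom.ker (ψ.comp (Algebra.adjoin O traces).val).toRingHom ≤ RingHom.ker φ :=
    fun a ha => by
    rw [RingHom.mem_ker] at ha ⊢
    obtain ⟨f, -, hf⟩ := (mem_partnerAlg _ _ _ _).1 (hpart a)
    refine huniq a f 0 hf ?_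
    rw [zero_smul]
    refine LinearMap.eqOn_span (g := (0 : V →ₗ[ℂ] V)) ?_ heG
    rintro _ ⟨y, hy, rfl⟩
    refine (hf y).symm.trans ?_
    rw [LinearMap.zero_apply,
      show (Ψ.comp (Algebra.adjoin O traces).val) a y = 0 from hy _ ha, map_zero]
  intro a ha
  have : Module.Finite O (Algebra.adjoin O traces) :=
    Module.Finite.of_injective (Algebra.adjoin O traces).val.toLinearMap Subtype.val_injective
  have : (RingHom.ker (ψ.comp (Algebra.adjoin O traces).val).toRingHom).IsPrime :=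
    RingHom.ker_isPrime _
  by_contra hne
  have hlt : RingHom.ker (ψ.comp (Algebra.adjoin O traces).val).toRingHom < RingHom.ker φ :=
    lt_of_le_not_ge hle fun h => hne (h (RingHom.mem_ker.2 ha))
  have h1 := Ideal.IsIntegral.comap_lt_comap (R := O) hlt
  have h2 : (RingHom.ker φ).comap (algebraMap O (Algebra.adjoin O traces)) = ⊥ :=
    (Submodule.eq_bot_iff _).2 fun c hc => hι <| by
      rw [map_zero, ← RingHom.mem_ker.1 (Ideal.mem_comap.1 hc)]
      refine (huniq _ (ι c • 1) _ (fun y => ?_)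
        (by rw [LinearMap.smul_apply, Module.End.one_apply])).symm
      rw [AlgHom.commutes, Module.algebraMap_end_apply, hP,
        LinearMap.smul_apply, Module.End.one_apply]
  exact not_lt_bot (h2 ▸ h1)

end Algebra

variable {N q : ℕ} [Fact q.Prime] {O : Type} [CommRing O] (χ : (ZMod q)ˣ →* Oˣ)

theorem pushChar_sqTwistChar (ι : O →+* ℂ) (u : (ZMod (N * q))ˣ) :
    pushChar (sqTwistChar N χ) ι u =
      ((Units.map (ι : O →* ℂ)).comp χ) (ZMod.unitsMap (dvd_mul_left q N) u) ^ 2 := by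
  show Units.map (ι : O →* ℂ) (sqTwistChar N χ u) = _
  rw [sqTwistChar_apply, map_pow]
  rfl

theorem map_extChar_inv (ι : O →+* ℂ) (x : ZMod q) :
    ι (extChar χ⁻¹ x) = extChar ((Units.map (ι : O →* ℂ)).comp χ)⁻¹ x := by
  unfold extChar
  split_ifs with h
  · exact map_zero ι
  · rw [MonoidHom.inv_apply, MonoidHom.inv_apply, MonoidHom.comp_apply, ← map_inv (Units.map (ι : O →* ℂ))]
    rfl

set_option maxHeartbeats 800000 in
/-- No point of a finite algebra acting faithfully on twisted classes is unipotent on inertia at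
`q`. -/
theorem not_isUnipotentOnInertiaAt_of_point (h36 : CondLevel.CarayolNotUnipotent) {p : ℕ}
    [Fact p.Prime] [IsDomain O] [IsDiscreteValuationRing O] [IsAdicComplete (maximalIdeal O) O]
    [Finite (ResidueField O)] [CharZero O] [NeZero N] (hqN : ¬ q ∣ N) (hp2 : p ≠ 2) (hqp : q ≠ p)
    (hχ : ∃ u, χ u ^ 2 ≠ 1)
    (X : Submodule O (H1 (epsOf (sqTwistChar N χ)) O)) [Module.Free O X] [Module.Finite O X]
    (hX : ∀ (l : ℕ) [Fact l.Prime], ∀ x ∈ X, h1T (sqTwistChar N χ) O l x ∈ X)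
    (hUq : ∀ x ∈ X, h1T (sqTwistChar N χ) O q x = 0 → x = 0)
    {ℓ₀ : ℕ} [Fact ℓ₀.Prime] (hℓ₀M : ¬ ℓ₀ ∣ N * q * q)
    (hℓ₀ : ((N * q * q : ℕ) : ℤ) ∣ (ℓ₀ : ℤ) - 1)
    (hne₀ : ∀ x ∈ X, h1T (sqTwistChar N χ) O ℓ₀ x = ((ℓ₀ : O) + 1) • x → x = 0)
    {T : Type} [CommRing T] [IsLocalRing T] [Algebra O T] [Module.Finite O T]
    (Ψ : T →ₐ[O] Module.End O X) (hΨ : Function.Injective Ψ)
    (hcomm : ∀ (l : ℕ) [Fact l.Prime] (a : T) (x : X),
      h1T (sqTwistChar N χ) O l (Ψ a x : H1 (epsOf (sqTwistChar N χ)) O) =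
        (Ψ a ⟨h1T (sqTwistChar N χ) O l x, hX l x x.2⟩ : H1 (epsOf (sqTwistChar N χ)) O))
    (ρ : GaloisRepAdic T) (habs : ρ.residual.IsAbsolutelyIrreducible)
    (hdet : ρ.DetIsCyclotomic p) (S : Finset ℕ) (hpS : p ∈ S) (hqS : q ∈ S)
    (hNS : ∀ l : ℕ, l.Prime → l ∣ N → l ∈ S)
    (htr : ∀ (l : ℕ) [Fact l.Prime], l ∉ S → ∀ A : ValuationSubring (AlgebraicClosure ℚ),
      A.LiesOverPrime l → ∀ σ : GQ, A.IsFrobeniusAt σ l → ∀ x : X,
        (Ψ (LinearMap.trace T ρ.V (ρ.ρ σ)) x : H1 (epsOf (sqTwistChar N χ)) O) =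
          extChar χ⁻¹ (l : ZMod q) • h1T (sqTwistChar N χ) O l x)
    {O₂ : Type} [CommRing O₂] [IsDomain O₂] [IsDiscreteValuationRing O₂]
    [IsAdicComplete (maximalIdeal O₂) O₂] [Finite (ResidueField O₂)] [CharZero O₂] [Algebra O O₂]
    (hinj : Function.Injective (algebraMap O O₂)) (ψ : T →ₐ[O] O₂)
    (hψ : IsLocalHom ψ.toRingHom) :
    ¬ (ρ.baseChangeAlong ψ.toRingHom hψ).IsUnipotentOnInertiaAt q := by
  classical
  obtain ⟨u₀, hu₀⟩ := hχ
  obtain ⟨ι, hι⟩ := exists_injective_complex O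
  have : NeZero (N * q) := ⟨mul_ne_zero (NeZero.ne N) (Fact.out : q.Prime).ne_zero⟩
  have hu₀' : ((χ u₀ ^ 2 : Oˣ) : O) - 1 ≠ 0 := fun h => hu₀ (Units.ext (sub_eq_zero.1 h))
  -- pushing to `ℂ` is injective on `X`
  let P : X →+ H1 (epsOf (pushChar (sqTwistChar N χ) ι)) ℂ :=
    (pushH1 (sqTwistChar N χ) ι).comp X.subtype.toAddMonoidHom
  have hP : ∀ (c : O) (y : X), P (c • y) = ι c • P y := fun c y => pushH1_smul ..
  have hPinj : ∀ y : X, P y = 0 → y = 0 := fun y hy => by
    obtain ⟨u, hu⟩ := ZMod.unitsMap_surjective (dvd_mul_left q N) u₀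
    obtain ⟨g₀, hg₀⟩ := exists_gamma0_unit u
    obtain ⟨c, hc⟩ := Submodule.Quotient.mk_surjective _ (y : H1 (epsOf (sqTwistChar N χ)) O)
    change pushH1 (sqTwistChar N χ) ι (y : H1 (epsOf (sqTwistChar N χ)) O) = 0 at hy
    rw [← hc, pushH1_mk, Submodule.Quotient.mk_eq_zero] at hy
    obtain ⟨b, hb⟩ := hy
    have hbg : ∀ g, ι ((c : Gamma0 (N * q) → O) g) =
        (ι (epsOf (sqTwistChar N χ) g : O) - 1) * b := fun g => by
      have := congrFun (congrArg Subtype.val hb) g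
      rw [cobound_apply, pushDer_apply, coe_epsOf_pushChar, smul_eq_mul] at this
      rw [← this]
      ring
    have he₀ : (epsOf (sqTwistChar N χ) g₀ : O) = ((χ u₀ ^ 2 : Oˣ) : O) := by
      rw [epsOf_apply, hg₀, sqTwistChar_apply, hu]
    have h1 : (((χ u₀ ^ 2 : Oˣ) : O) - 1) • c =
        cobound (epsOf (sqTwistChar N χ)) O ((c : Gamma0 (N * q) → O) g₀) := by
      refine Subtype.ext (funext fun g => hι ?_)
      rw [SetLike.val_smul, Pi.smul_apply, cobound_apply, smul_eq_mul, smul_eq_mul, ← he₀, map_mul,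
        map_sub, map_sub, map_mul, map_one, hbg g, hbg g₀]
      ring
    have h2 : (((χ u₀ ^ 2 : Oˣ) : O) - 1) • y = 0 := Subtype.ext (by
      rw [Submodule.coe_smul, ← hc, ← Submodule.Quotient.mk_smul, h1, Submodule.coe_zero,
        Submodule.Quotient.mk_eq_zero]
      exact LinearMap.mem_range_self _ _)
    exact (smul_eq_zero.1 h2).resolve_left hu₀'
  -- the span of the lattice over `ℂ`
  let V : Submodule ℂ (H1 (epsOf (pushChar (sqTwistChar N χ) ι)) ℂ) :=
    Submodule.span ℂ (Set.range P)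
  have : FiniteDimensional ℂ V := by
    obtain ⟨s, hs⟩ := (Module.Finite.fg_top : (⊤ : Submodule O X).FG)
    have hfin := FiniteDimensional.span_of_finite ℂ (s.finite_toSet.image P)
    refine Submodule.finiteDimensional_of_le (S₂ := Submodule.span ℂ (P '' (s : Set X))) ?_
    refine Submodule.span_le.2 ?_
    rintro _ ⟨y, rfl⟩
    have hy : y ∈ Submodule.span O (s : Set X) := hs ▸ Submodule.mem_top
    induction hy using Submodule.span_induction with
    | mem z hz => exact Submodule.subset_span ⟨z, hz, rfl⟩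
    | zero => rw [map_zero]; exact zero_mem _
    | add a b _ _ ha hb => rw [map_add]; exact add_mem ha hb
    | smul c a _ ha => rw [hP]; exact Submodule.smul_mem _ _ ha
  let PV : X →+ V := P.codRestrict V fun y => Submodule.subset_span ⟨y, rfl⟩
  have hPV : ∀ (c : O) (y : X), PV (c • y) = ι c • PV y := fun c y => Subtype.ext (hP c y)
  let op : Nat.Primes → Module.End O X := fun l =>
    haveI := Fact.mk l.2
    (h1T (sqTwistChar N χ) O l.1).restrict fun y hy => hX l.1 y hy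
  have hop : ∀ (l : Nat.Primes) (y : X), P (op l y) =
      (haveI := Fact.mk l.2; h1T (pushChar (sqTwistChar N χ) ι) ℂ l.1 (P y)) := fun l y => by
    have := Fact.mk l.2
    exact pushH1_h1T (sqTwistChar N χ) ι l.1 _
  have hstV : ∀ (l : Nat.Primes), ∀ v ∈ V,
      (haveI := Fact.mk l.2; h1T (pushChar (sqTwistChar N χ) ι) ℂ l.1 v) ∈ V := fun l v hv => by
    have := Fact.mk l.2
    induction hv using Submodule.span_induction with
    | mem v hv =>
      obtain ⟨y, rfl⟩ := hv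
      exact Submodule.subset_span ⟨op l y, hop l y⟩
    | zero => rw [map_zero]; exact zero_mem _
    | add a b _ _ ha hb => rw [map_add]; exact add_mem ha hb
    | smul c a _ ha => rw [map_smul]; exact Submodule.smul_mem _ c ha
  let F : Nat.Primes → Module.End ℂ V := fun l =>
    haveI := Fact.mk l.2
    (h1T (pushChar (sqTwistChar N χ) ι) ℂ l.1).restrict (hstV l)
  have hF : ∀ i j, Commute (F i) (F j) := fun i j => by
    have := Fact.mk i.2
    have := Fact.mk j.2
    exact LinearMap.ext fun z => Subtype.ext (h1T_comm _ i.1 j.1 _)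
  have hopV : ∀ (l : Nat.Primes) (y : X), PV (op l y) = F l (PV y) := fun l y =>
    Subtype.ext (hop l y)
  -- the algebra of the traces at good primes
  let traces : Set T := {t | ∃ l : Nat.Primes, l.1 ∉ S ∧ ∃ A : ValuationSubring (AlgebraicClosure ℚ),
    A.LiesOverPrime l.1 ∧ ∃ σ : GQ, A.IsFrobeniusAt σ l.1 ∧ LinearMap.trace T ρ.V (ρ.ρ σ) = t}
  have hrel : ∀ (l : Nat.Primes), l.1 ∉ S → ∀ A : ValuationSubring (AlgebraicClosure ℚ),
      A.LiesOverPrime l.1 → ∀ σ : GQ, A.IsFrobeniusAt σ l.1 → ∀ y : X,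
        PV (Ψ (LinearMap.trace T ρ.V (ρ.ρ σ)) y) =
          (ι (extChar χ⁻¹ (l.1 : ZMod q)) • F l) (PV y) := fun l hl A hA σ hσ y => by
    have := Fact.mk l.2
    have h : Ψ (LinearMap.trace T ρ.V (ρ.ρ σ)) y = extChar χ⁻¹ (l.1 : ZMod q) • op l y :=
      Subtype.ext (htr l.1 hl A hA σ hσ y)
    rw [h, hPV, hopV, LinearMap.smul_apply]
  have hPVinj : ∀ y, PV y = 0 → y = 0 := fun y h => hPinj y (congrArg Subtype.val h)
  have hcomm' : ∀ (l : Nat.Primes) (a : T) (y : X), op l (Ψ a y) = Ψ a (op l y) := fun l a y =>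
    Subtype.ext (haveI := Fact.mk l.2; hcomm l.1 a y)
  obtain ⟨e, μ, φ, he0, hespan, hμ, hker, huniq⟩ := exists_scalar_point hinj hι PV hPV hPVinj F hF
    op hopV Ψ hΨ hcomm' traces (by
      rintro t ⟨l, hl, A, hA, σ, hσ, rfl⟩
      exact ⟨_, (Algebra.adjoin ℂ (Set.range F)).smul_mem
        (Algebra.subset_adjoin (Set.mem_range_self l)) _, hrel l hl A hA σ hσ⟩) ψ
  have hq0 : μ ⟨q, Fact.out⟩ ≠ 0 :=
    eigen_ne_zero_of_injective hι PV hPV (f := op ⟨q, Fact.out⟩)
      (LinearMap.ker_eq_bot.1 ((Submodule.eq_bot_iff _).2 fun y hy =>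
        Subtype.ext (hUq y y.2 (congrArg Subtype.val hy))))
      (fun y => hopV _ y) he0 hespan (hμ _)
  have hℓ0' : μ ⟨ℓ₀, Fact.out⟩ ≠ ι ((ℓ₀ : O) + 1) :=
    eigen_ne_of_injective hι PV hPV (f := op ⟨ℓ₀, Fact.out⟩)
      (fun y hy => Subtype.ext (hne₀ y y.2 (congrArg Subtype.val hy)))
      (fun y => hopV _ y) he0 hespan (hμ _)
  rw [map_add, map_natCast, map_one] at hℓ0'
  -- the point
  let T₀ := Algebra.adjoin O traces
  let θR : φ.range →+* O₂ := φ.rangeRestrict.liftOfSurjective φ.rangeRestrict_surjective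
    ⟨(ψ.comp T₀.val).toRingHom, fun a ha => RingHom.mem_ker.2 (hker a
      (congrArg Subtype.val (RingHom.mem_ker.1 ha)))⟩
  have hθR : ∀ a, θR (φ.rangeRestrict a) = ψ (a : T) := fun a =>
    RingHom.liftOfSurjective_comp_apply φ.rangeRestrict φ.rangeRestrict_surjective _ a
  let χ₀ : (ZMod q)ˣ →* ℂˣ := (Units.map (ι : O →* ℂ)).comp χ
  let lam : ℕ → ℂ := fun l => if hl : l.Prime then μ ⟨l, hl⟩ else 0
  have hlam : ∀ (l : ℕ) (hl : l.Prime), lam l = μ ⟨l, hl⟩ := fun l hl => dif_pos hl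
  have heig : ∀ (l : ℕ) [Fact l.Prime], h1T (pushChar (sqTwistChar N χ) ι) ℂ l e.1 = lam l • e.1 :=
    fun l hl => by
      rw [hlam l hl.out]
      exact congrArg Subtype.val (hμ ⟨l, hl.out⟩)
  have hex : ∀ l : ℕ, l.Prime → l ∉ S → ∀ A : ValuationSubring (AlgebraicClosure ℚ),
      A.LiesOverPrime l → ∀ σ : GQ, A.IsFrobeniusAt σ l →
        ∃ a : T₀, (a : T) = LinearMap.trace T ρ.V (ρ.ρ σ) ∧
          φ a = TWLoc.twistedLam χ₀ lam l := fun l hl hlS A hA σ hσ => by
    refine ⟨⟨_, Algebra.subset_adjoin ⟨⟨l, hl⟩, hlS, A, hA, σ, hσ, rfl⟩⟩, rfl, ?_⟩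
    refine huniq _ (ι (extChar χ⁻¹ (l : ZMod q)) • F ⟨l, hl⟩) _
      (fun y => hrel ⟨l, hl⟩ hlS A hA σ hσ y) ?_
    rw [LinearMap.smul_apply, TWLoc.twistedLam, hlam l hl, map_extChar_inv, ← smul_smul]
    exact congrArg (extChar χ₀⁻¹ (l : ZMod q) • ·) (hμ ⟨l, hl⟩)
  have hR : ∀ l : ℕ, l.Prime → l ∉ S → TWLoc.twistedLam χ₀ lam l ∈ φ.range := fun l hl hlS => by
    obtain ⟨A, σ, hA, hσ⟩ := Galois.exists_place_isFrobeniusAt hl
    obtain ⟨a, -, ha⟩ := hex l hl hlS A hA σ hσ
    exact ⟨a, ha⟩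
  have hpO₂ : (p : O₂) ∈ maximalIdeal O₂ := by
    rw [← map_natCast ψ.toRingHom]
    exact map_nonunit ψ.toRingHom _ hdet.1
  have : CharP (ResidueField O₂) p := CondLevel.charP_residueField p hpO₂
  have h2 : (2 : ResidueField O₂) ≠ 0 :=
    Ring.two_ne_zero (by rw [ringChar.eq (ResidueField O₂) p]; exact hp2)
  have hres : (ρ.baseChangeAlong ψ.toRingHom hψ).residual.IsAbsolutelyIrreducible ∧
      (ρ.baseChangeAlong ψ.toRingHom hψ).residual.IsOdd := by
    let _ := ψ.toRingHom.toAlgebra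
    have : IsLocalHom (algebraMap T O₂) := hψ
    exact TWLoc.residual_absIrr_of_charpoly h2 ρ (isIrreducible_of_absIrr _ habs)
      (residual_isOdd ρ hp2 hdet) _
      fun σ => TWLoc.charpoly_baseChangeAlong ψ.toRingHom hψ ρ σ
  have hη : ∃ u, χ₀ u ^ 2 ≠ 1 := ⟨u₀, fun h => hu₀ (Units.ext (hι (by
    have := congrArg (Units.val : ℂˣ → ℂ) h
    simpa [χ₀] using this)))⟩
  refine not_unipotent_of_eigen h36 hqN (M := N * q) rfl hp2 hqp χ₀ hη _ (dvd_mul_left q N)
    (pushChar_sqTwistChar χ ι) e.1 (fun h => he0 (Subtype.ext h)) lam heig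
    (by rw [hlam q Fact.out]; exact hq0) hℓ₀M hℓ₀
    (by rw [hlam ℓ₀ Fact.out]; exact hℓ0') S hpS hqS hNS hpO₂ φ.range θR hR _
    (isIrreducible_of_absIrr _ hres.1) hres.2 fun l hl hlS A hA σ hσ => ?_
  obtain ⟨a, ha, hφa⟩ := hex l hl hlS A hA σ hσ
  have hθ : θR ⟨_, hR l hl hlS⟩ = ψ (LinearMap.trace T ρ.V (ρ.ρ σ)) := by
    rw [← ha, ← hθR]
    exact congrArg θR (Subtype.ext hφa.symm)
  have hd := Tangent.detIsCyclotomic_baseChangeAlong ψ.toRingHom hψ hdet
  have hdl : LinearMap.det ((ρ.baseChangeAlong ψ.toRingHom hψ).ρ σ) = (l : O₂) := by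
    have hlp : l ≠ p := fun h => hlS (h ▸ hpS)
    let b := Module.finBasisOfFinrankEq O₂ (ρ.baseChangeAlong ψ.toRingHom hψ).V
      (ρ.baseChangeAlong ψ.toRingHom hψ).finrank_eq
    rw [← LinearMap.det_toMatrix b, ← Deform.matOf_apply]
    exact CotGrowth.det_frobenius Fact.out hl hlp _ hd b hA hσ
  rw [Density.charpoly_fin_two_eq (ρ.baseChangeAlong ψ.toRingHom hψ).finrank_eq, hdl,
    trace_baseChangeAlong, hθ]
  rfl

end Fermat.Agent.R59.TWRam
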