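import Fermat.Agent.GAL.PointExtend

/-!
# Points of finite algebras with values in discrete valuation rings
-/

set_option autoImplicit false
set_option linter.style.haveILetI false

noncomputable section

open IsLocalRing

namespace Fermat.Agent.R59.TWRam

/-- The values of a homomorphism from a finite algebra to a field lie in a complete discrete
valuation ring. -/
theorem exists_dvr_point {O : Type} [CommRing O] [IsDomain O] [IsDiscreteValuationRing O]
    [IsAdicComplete (maximalIdeal O) O] [Finite (ResidueField O)] [CharZero O]
    {T : Type} [CommRing T] [IsLocalRing T] [Algebra O T] [Module.Finite O T]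
    {Ω : Type} [Field Ω] (φ : T →+* Ω)
    (hinj : Function.Injective (φ.comp (algebraMap O T))) :
    ∃ (O' : Type) (_ : CommRing O') (_ : IsDomain O') (_ : IsDiscreteValuationRing O')
      (_ : IsAdicComplete (maximalIdeal O') O') (_ : Finite (ResidueField O')) (_ : CharZero O')
      (g : T →+* O'), IsLocalHom g ∧ (∀ a b, φ a = φ b → g a = g b) := by
  classical
  let jO : O →+* Ω := φ.comp (algebraMap O T)
  letI : Algebra O Ω := jO.toAlgebra
  have : FaithfulSMul O Ω := (faithfulSMul_iff_algebraMap_injective _ _).mpr hinj
  let K := FractionRing O
  letI : Algebra K Ω := FractionRing.liftAlgebra O Ω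
  have : CharZero K := charZero_of_injective_algebraMap (IsFractionRing.injective O K)
  obtain ⟨s, hs⟩ := (Module.Finite.fg_top : (⊤ : Submodule O T).FG)
  let φa : T →ₐ[O] Ω := { φ with commutes' := fun _ => rfl }
  have hint : ∀ t, IsIntegral O (φ t) := fun t => (Algebra.IsIntegral.isIntegral t).map φa
  let E := IntermediateField.adjoin K (φ '' (s : Set T))
  have : FiniteDimensional K E := by
    apply IntermediateField.finiteDimensional_adjoin
    rintro x ⟨t, -, rfl⟩
    exact (hint t).tower_top
  have hE : ∀ t, φ t ∈ E := by
    intro t
    have ht : t ∈ Submodule.span O (s : Set T) := by rw [hs]; trivial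
    induction ht using Submodule.span_induction with
    | mem x hx => exact IntermediateField.subset_adjoin _ _ ⟨x, hx, rfl⟩
    | zero => rw [map_zero]; exact zero_mem _
    | add x y _ _ hx hy => rw [map_add]; exact add_mem hx hy
    | smul a x _ hx =>
      rw [Algebra.smul_def, map_mul]
      refine mul_mem ?_ hx
      show jO a ∈ E
      rw [show jO a = algebraMap K Ω (algebraMap O K a) from IsScalarTower.algebraMap_apply O K Ω a]
      exact E.algebraMap_mem _
  have : Algebra.IsSeparable K E := inferInstance
  have : IsScalarTower O K E := inferInstance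
  let O' := integralClosure O E
  have : Module.Finite O O' := IsIntegralClosure.finite O K E O'
  have : IsDedekindDomain O' := IsIntegralClosure.isDedekindDomain O K E O'
  have hOE : Function.Injective (algebraMap O E) := by
    rw [IsScalarTower.algebraMap_eq O K E]
    exact (algebraMap K E).injective.comp (IsFractionRing.injective O K)
  have hOO : Function.Injective (algebraMap O O') := fun x y hxy =>
    hOE (congrArg Subtype.val hxy)
  haveI : IsLocalRing O' := GAL.isLocalRing_of_finite_of_isDomain (O := O) O'
  have hloc : IsLocalHom (algebraMap O O') :=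
    RingHom.IsIntegral.isLocalHom (fun x => Algebra.IsIntegral.isIntegral x) hOO
  have hnf : ¬ IsField O' := fun h =>
    IsDiscreteValuationRing.not_isField O (isField_of_isIntegral_of_isField hOO h)
  haveI : IsDiscreteValuationRing O' :=
    ((IsDiscreteValuationRing.TFAE O' hnf).out 0 2 :
      IsDiscreteValuationRing O' ↔ IsDedekindDomain O').mpr inferInstance
  haveI : IsAdicComplete (maximalIdeal O') O' :=
    IsLocalRing.isAdicComplete_of_module_finite (𝒪 := O)
  have : Module.Finite (ResidueField O) (ResidueField O') := inferInstance
  haveI : Finite (ResidueField O') := Module.finite_of_finite (ResidueField O)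
  haveI : CharZero O' := charZero_of_injective_algebraMap hOO
  let gE : T →+* E := φ.codRestrict E hE
  have hintE : ∀ t, gE t ∈ O' := fun t =>
    (isIntegral_algHom_iff (E.val.restrictScalars O) Subtype.val_injective).mp (hint t)
  let g : T →+* O' := gE.codRestrict O'.toSubring hintE
  have hg : ∀ a b, φ a = φ b → g a = g b := fun a b h => Subtype.ext (Subtype.ext h)
  refine ⟨O', inferInstance, inferInstance, inferInstance, inferInstance, inferInstance,
    inferInstance, g, ?_, hg⟩
  letI : Algebra T O' := g.toAlgebra
  have hgO : ∀ a : O, g (algebraMap O T a) = algebraMap O O' a := fun a =>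
    Subtype.ext (Subtype.ext rfl)
  have : IsScalarTower O T O' := IsScalarTower.of_algebraMap_eq fun a => (hgO a).symm
  have : Algebra.IsIntegral T O' := Algebra.IsIntegral.tower_top (R := O)
  have hmax : (maximalIdeal O').comap g = maximalIdeal T :=
    IsLocalRing.eq_maximalIdeal
      (Ideal.isMaximal_comap_of_isIntegral_of_isMaximal (R := T) (maximalIdeal O'))
  refine ⟨fun t ht => by_contra fun hnu => ?_⟩
  have h1 : t ∈ (maximalIdeal O').comap g := hmax.symm ▸ (mem_maximalIdeal t).mpr hnu
  exact (mem_maximalIdeal _).mp (Ideal.mem_comap.mp h1) ht

end Fermat.Agent.R59.TWRam
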