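import Fermat.Agent.R59.TWRamified.Level

/-!
# Characters detect the classes of a component of order `p`
-/

set_option autoImplicit false
set_option synthInstance.maxHeartbeats 400000

noncomputable section

open IsLocalRing CongruenceSubgroup Fermat.Agent.TW.Mod

namespace Fermat.Agent.R59.TWRam

/-- Moving a congruence through a quotient and an idempotent. -/
theorem smul_mem_of_idem {R D H : Type*} [CommRing R] [AddCommGroup D] [Module R D] [AddCommGroup H]
    [Module R H] (π : D →ₗ[R] H) (I : Ideal R) {e : Module.End R H} (he : e * e = e)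
    {c c₀ d : D} {e₀ : R} (hd : d = e₀ • c - c₀) (hc₀ : π c₀ = 0)
    (hdI : d ∈ I • (⊤ : Submodule R D)) (x : LinearMap.range e) (hc : π c = x) :
    e₀ • x ∈ I • (⊤ : Submodule R (LinearMap.range e)) := by
  have h1 := Submodule.mem_map_of_mem (f := e.rangeRestrict ∘ₗ π) hdI
  rw [Submodule.map_smul'', LinearMap.comp_apply, hd, map_sub, map_smul, hc₀, sub_zero, map_smul,
    hc] at h1
  have hx : e.rangeRestrict (x : H) = x := Subtype.ext ((mem_range_iff_of_idem he).1 x.2)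
  rw [hx] at h1
  exact Submodule.smul_mono le_rfl le_top h1

variable {W : WeierstrassCurve ℤ} {p : ℕ} {k : Kind} {U : Setup W p k} [NeZero p] {m r : ℕ}
  (T : TWPrimes U m r) [NeZero T.level] (hadm : TW.Mod.Admissible (epsOf T.chi))
  (hM : Occurs U.𝒪 (heckeFam U.𝒪 T.level (↑(minSet W p) : Set ℕ))
    (raiseLam T.primes T.α (TWPrimes.lam (U := U))))
  (ι : U.𝒪 →+* ℂ) (i : Fin r)

/-- Classes with all images zero lie in the ideal of the component. -/
theorem mem_smul_of_forall_push_eq_zero [Module.Free (TWAlg U.𝒪 p m r) (T.twMod hadm hM)]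
    (hp : p.Prime) (hp2 : p ≠ 2) (hm : 0 < m) (hι : Function.Injective ι)
    (x : T.twMod hadm hM)
    (h : ∀ (ζ : ℂ) (hζ : IsPrimitiveRoot ζ p),
      pushH1 T.chi (ramChar ι i hζ hm) (x : H1 (epsOf T.chi) (TWAlg U.𝒪 p m r)) = 0) :
    x ∈ ramI U.𝒪 p m r i • (⊤ : Submodule (TWAlg U.𝒪 p m r) (T.twMod hadm hM)) := by
  classical
  have hqv : NeZero (T.qv i) := ⟨(T.prime i).ne_zero⟩
  obtain ⟨c, hc⟩ := Submodule.Quotient.mk_surjective _ (x : H1 (epsOf T.chi) (TWAlg U.𝒪 p m r))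
  obtain ⟨u₀, hu₀⟩ := ZMod.unitsMap_surjective (T.dvd_level i) (T.gen i)
  obtain ⟨g₀, hg₀⟩ := exists_gamma0_unit u₀
  set e₀ : TWAlg U.𝒪 p m r := (epsOf T.chi g₀ : TWAlg U.𝒪 p m r) - 1 with he₀
  have he₀ψ : ∀ (ζ : ℂ) (hζ : IsPrimitiveRoot ζ p), ramChar ι i hζ hm e₀ ≠ 0 := fun ζ hζ h0 => by
    rw [he₀, map_sub, map_one, sub_eq_zero, ← coe_epsOf_pushChar, epsOf_apply, hg₀,
      pushChar_chi, hu₀] at h0
    exact chiZ_gen_sq_ne T ι i hζ hm hp hp2 (Units.ext h0)
  set I := ramI U.𝒪 p m r i with hI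
  set d : Der (epsOf T.chi) (TWAlg U.𝒪 p m r) :=
    e₀ • c - cobound _ _ ((c : Gamma0 T.level → TWAlg U.𝒪 p m r) g₀) with hd
  have hdI : ∀ g, (d : Gamma0 T.level → TWAlg U.𝒪 p m r) g ∈ I := fun g => by
    refine mem_ramI_of_forall ι i hm hι hp fun ζ hζ => ?_
    have h0 := h ζ hζ
    rw [← hc, pushH1_mk, Submodule.Quotient.mk_eq_zero] at h0
    obtain ⟨b, hb⟩ := h0
    have hbg : ∀ g, ramChar ι i hζ hm ((c : Gamma0 T.level → TWAlg U.𝒪 p m r) g) =
        (ramChar ι i hζ hm (epsOf T.chi g : TWAlg U.𝒪 p m r) - 1) * b := fun g => by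
      have := congrFun (congrArg Subtype.val hb) g
      rw [cobound_apply, pushDer_apply, coe_epsOf_pushChar, smul_eq_mul] at this
      rw [← this]
      ring
    rw [hd, AddSubgroupClass.coe_sub, Pi.sub_apply, SetLike.val_smul, Pi.smul_apply, cobound_apply,
      smul_eq_mul, smul_eq_mul, he₀, map_sub, map_mul, map_sub, map_sub, map_mul, map_one, hbg g,
      hbg g₀]
    ring
  have hker : d ∈ LinearMap.ker (Der.map (ε := epsOf T.chi) I.mkQ) := by
    rw [LinearMap.mem_ker]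
    refine Subtype.ext (funext fun g => ?_)
    show Submodule.Quotient.mk ((d : Gamma0 T.level → TWAlg U.𝒪 p m r) g) = 0
    rw [Submodule.Quotient.mk_eq_zero]
    exact hdI g
  rw [hadm.ker_der_map, Submodule.ker_mkQ] at hker
  have hmem' : e₀ • x ∈ I • (⊤ : Submodule (TWAlg U.𝒪 p m r) (T.twMod hadm hM)) :=
    smul_mem_of_idem (LinearMap.range (cobound (epsOf T.chi) (TWAlg U.𝒪 p m r))).mkQ I
      (twIdem_mul_self hadm T.twAug_chi hM) hd
      ((Submodule.Quotient.mk_eq_zero _).mpr (LinearMap.mem_range_self _ _)) hker x hc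
  refine mem_smul_top_of_coord (Module.Free.chooseBasis (TWAlg U.𝒪 p m r) (T.twMod hadm hM))
    fun j => mem_ramI_of_forall ι i hm hι hp fun ζ hζ => ?_
  have h3 := coord_mem_of_mem_smul_top
    ((Module.Free.chooseBasis (TWAlg U.𝒪 p m r) (T.twMod hadm hM)).coord j) hmem'
  have h4 := ramI_le_ker ι i hζ hm hp.one_lt h3
  rw [RingHom.mem_ker, map_smul, smul_eq_mul, map_mul] at h4
  exact (mul_eq_zero.1 h4).resolve_left (he₀ψ ζ hζ)

end Fermat.Agent.R59.TWRam
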