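import Mathlib

/-!
# Complete discrete valuation rings with finite residue field embed into `ℂ`
-/

set_option autoImplicit false

noncomputable section

open IsLocalRing Cardinal

namespace Fermat.Agent.R59.TWRam

/-- A complete discrete valuation ring with finite residue field has at most continuum many
elements. -/
theorem cardinalMk_le_continuum (O : Type) [CommRing O] [IsDomain O] [IsDiscreteValuationRing O]
    [IsAdicComplete (maximalIdeal O) O] [Finite (ResidueField O)] :
    #O ≤ continuum := by
  have hfin : ∀ n : ℕ, Finite (O ⧸ maximalIdeal O ^ n) := fun n => by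
    have : Finite (O ⧸ maximalIdeal O) := ‹Finite (ResidueField O)›
    exact Ideal.finite_quotient_pow (IsNoetherian.noetherian _) n
  choose e he using fun n => @Countable.exists_injective_nat (O ⧸ maximalIdeal O ^ n)
    (@Finite.to_countable _ (hfin n))
  have hinj : Function.Injective fun (x : O) (n : ℕ) => e n (Ideal.Quotient.mk _ x) := by
    intro x y hxy
    refine sub_eq_zero.mp (IsHausdorff.haus (inferInstance : IsHausdorff (maximalIdeal O) O) _
      fun n => ?_)
    rw [smul_eq_mul, Ideal.mul_top, SModEq.zero, ← Ideal.Quotient.eq]
    exact he n (congrFun hxy n)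
  have h := Cardinal.mk_le_of_injective hinj
  simpa using h

/-- A complete discrete valuation ring of characteristic zero with finite residue field embeds
into `ℂ`. -/
theorem exists_injective_complex (O : Type) [CommRing O] [IsDomain O] [IsDiscreteValuationRing O]
    [IsAdicComplete (maximalIdeal O) O] [Finite (ResidueField O)] [CharZero O] :
    ∃ ι : O →+* ℂ, Function.Injective ι := by
  let P := MvPolynomial ℝ O
  let F := FractionRing P
  let L := AlgebraicClosure F
  have : CharZero P := charZero_of_injective_algebraMap (MvPolynomial.C_injective ℝ O)
  have : CharZero F := charZero_of_injective_algebraMap (IsFractionRing.injective P F)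
  have : CharZero L := charZero_of_injective_algebraMap (algebraMap F L).injective
  have hP : #P = continuum := by
    refine le_antisymm ?_ ?_
    · refine MvPolynomial.cardinalMk_le_max.trans ?_
      simp [cardinalMk_le_continuum O, aleph0_le_continuum, Cardinal.mk_real]
    · rw [← Cardinal.mk_real]
      exact Cardinal.mk_le_of_injective (MvPolynomial.X_injective (R := O) (σ := ℝ))
  have hPL : Function.Injective (algebraMap P L) := by
    rw [IsScalarTower.algebraMap_eq P F L]
    exact (algebraMap F L).injective.comp (IsFractionRing.injective P F)
  have hF : #F = continuum := by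
    rw [← hP]
    exact Cardinal.mk_fractionRing P
  have hL : #L = continuum := by
    refine le_antisymm ?_ ?_
    · refine (Algebra.IsAlgebraic.cardinalMk_le_max F L).trans ?_
      simp [hF, aleph0_le_continuum]
    · rw [← hP]
      exact Cardinal.mk_le_of_injective hPL
  obtain ⟨e⟩ := IsAlgClosed.ringEquiv_of_equiv_of_charZero (K := L) (L := ℂ)
    (by rw [hL]; exact aleph0_lt_continuum)
    (Cardinal.eq.mp (by rw [hL, Cardinal.mk_complex]))
  refine ⟨e.toRingHom.comp ((algebraMap P L).comp MvPolynomial.C), ?_⟩
  exact e.injective.comp (hPL.comp (MvPolynomial.C_injective ℝ O))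

end Fermat.Agent.R59.TWRam
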