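import Fermat.Agent.R59.GroupRing

/-!
# The components of order `p` at one generator of the group ring
-/

set_option autoImplicit false

noncomputable section

open Polynomial

namespace Fermat.Agent.R59.TWRam

variable (O : Type) [CommRing O] (p m r : ℕ)

/-- The ideal of the components of order `p` at the `i`-th generator and trivial elsewhere. -/
def ramI (i : Fin r) : Ideal (TWAlg O p m r) :=
  Ideal.span ({∑ j ∈ Finset.range p, twGen O p m r i ^ j} ∪
    (fun j => twGen O p m r j - 1) '' {j | j ≠ i})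

variable {O p m r}

theorem ramI_sub_mem_of_gen {B : Type} [CommRing B] (φ : TWAlg O p m r →+* B) {i : Fin r}
    (hi : ∑ j ∈ Finset.range p, φ (twGen O p m r i) ^ j = 0)
    (hj : ∀ j, j ≠ i → φ (twGen O p m r j) = 1) : ramI O p m r i ≤ RingHom.ker φ := by
  refine Ideal.span_le.2 ?_
  rintro _ (rfl | ⟨j, hne, rfl⟩)
  · rw [SetLike.mem_coe, RingHom.mem_ker, map_sum]
    simpa using hi
  · rw [SetLike.mem_coe, RingHom.mem_ker, map_sub, map_one, hj j hne, sub_self]

/-- Modulo the ideal every element is a polynomial in the `i`-th generator. -/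
theorem exists_aeval_sub_mem [NeZero p] (i : Fin r) (x : TWAlg O p m r) :
    ∃ P : O[X], x - aeval (twGen O p m r i) P ∈ ramI O p m r i := by
  classical
  induction x using MonoidAlgebra.induction_on with
  | of g =>
    refine ⟨X ^ (Multiplicative.toAdd (g i)).val, ?_⟩
    rw [map_pow, aeval_X, ← Ideal.Quotient.eq]
    let φ : TWGroup p m r →* TWAlg O p m r ⧸ ramI O p m r i :=
      (Ideal.Quotient.mk _).toMonoidHom.comp (MonoidAlgebra.of O _)
    have hφ : ∀ j, j ≠ i → φ (Pi.mulSingle j (Multiplicative.ofAdd 1)) = 1 := fun j hj =>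
      (Ideal.Quotient.eq.mpr (Ideal.subset_span (Or.inr ⟨j, hj, rfl⟩) :
        twGen O p m r j - 1 ∈ ramI O p m r i)).trans (map_one _)
    have hpow : ∀ j, g j = Multiplicative.ofAdd (1 : ZMod (p ^ m)) ^
        (Multiplicative.toAdd (g j)).val := fun j => by
      apply Multiplicative.toAdd.injective
      rw [toAdd_pow, toAdd_ofAdd, nsmul_eq_mul, mul_one, ZMod.natCast_zmod_val]
    show φ g = _
    conv_lhs => rw [← Finset.univ_prod_mulSingle g, map_prod]
    rw [Finset.prod_eq_single i (fun j _ hj => by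
      rw [hpow j, Pi.mulSingle_pow, map_pow, hφ j hj, one_pow]) (by simp)]
    show Ideal.Quotient.mk _ (MonoidAlgebra.of O _ (Pi.mulSingle i (g i) : TWGroup p m r)) = _
    conv_lhs => rw [hpow i, Pi.mulSingle_pow, map_pow]
    rfl
  | add a b ha hb =>
    obtain ⟨P, hP⟩ := ha
    obtain ⟨Q, hQ⟩ := hb
    exact ⟨P + Q, by rw [map_add, add_sub_add_comm]; exact add_mem hP hQ⟩
  | smul c a ha =>
    obtain ⟨P, hP⟩ := ha
    exact ⟨c • P, by rw [map_smul, ← smul_sub, Algebra.smul_def]; exact Ideal.mul_mem_left _ _ hP⟩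

section Char

variable (ι : O →+* ℂ) (i : Fin r) {ζ : ℂ} [NeZero p] (hζ : IsPrimitiveRoot ζ p) (hm : 0 < m)

include hm hζ in
/-- The character of the group. -/
def groupChar : TWGroup p m r →* ℂ where
  toFun g := ζ ^ (Multiplicative.toAdd (g i)).val
  map_one' := by simp
  map_mul' g h := by
    rw [← pow_add, Pi.mul_apply, toAdd_mul, ZMod.val_add]
    exact (pow_eq_pow_mod _ (by
      obtain ⟨m, rfl⟩ : ∃ n, m = n + 1 := ⟨m - 1, by omega⟩
      rw [pow_succ', pow_mul, hζ.pow_eq_one, one_pow])).symm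

/-- The character of the group ring. -/
def ramChar : TWAlg O p m r →+* ℂ :=
  MonoidAlgebra.liftNCRingHom ι (groupChar i hζ hm) fun _ _ => Commute.all _ _

theorem ramChar_of (g : TWGroup p m r) :
    ramChar ι i hζ hm (MonoidAlgebra.of O _ g) = ζ ^ (Multiplicative.toAdd (g i)).val := by
  simp [ramChar, MonoidAlgebra.liftNCRingHom, groupChar]

theorem ramChar_algebraMap (c : O) : ramChar ι i hζ hm (algebraMap O _ c) = ι c := by
  simp [ramChar, MonoidAlgebra.liftNCRingHom, groupChar]

theorem ramChar_twGen (hp : 1 < p) (j : Fin r) :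
    ramChar ι i hζ hm (twGen O p m r j) = if j = i then ζ else 1 := by
  rw [twGen, ramChar_of]
  split_ifs with h
  · subst h
    have : Fact (1 < p ^ m) := ⟨Nat.one_lt_pow hm.ne' hp⟩
    rw [Pi.mulSingle_eq_same, toAdd_ofAdd, ZMod.val_one, pow_one]
  · rw [Pi.mulSingle_eq_of_ne (Ne.symm h), toAdd_one, ZMod.val_zero, pow_zero]

theorem ramI_le_ker (hp : 1 < p) : ramI O p m r i ≤ RingHom.ker (ramChar ι i hζ hm) := by
  refine ramI_sub_mem_of_gen _ ?_ fun j hj => by rw [ramChar_twGen ι i hζ hm hp, if_neg hj]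
  rw [ramChar_twGen ι i hζ hm hp, if_pos rfl]
  exact hζ.geom_sum_eq_zero hp

/-- The characters detect the ideal. -/
theorem mem_ramI_of_forall (hι : Function.Injective ι) (hp : p.Prime) {x : TWAlg O p m r}
    (h : ∀ (ζ : ℂ) (hζ : IsPrimitiveRoot ζ p), ramChar ι i hζ hm x = 0) :
    x ∈ ramI O p m r i := by
  have : Nontrivial O := nontrivial_of_ne (0 : O) 1 fun h01 => by
    have := congrArg ι h01
    simp at this
  obtain ⟨P, hP⟩ := exists_aeval_sub_mem i x
  set Φ : O[X] := ∑ j ∈ Finset.range p, X ^ j with hΦ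
  have hΦm : Φ.Monic := monic_geom_sum_X hp.ne_zero
  have hdeg : Φ.natDegree = p - 1 := by
    have hPhi : Φ = cyclotomic p O := by
      have : Fact p.Prime := ⟨hp⟩
      rw [cyclotomic_prime]
    rw [hPhi, natDegree_cyclotomic, Nat.totient_prime hp]
  have hmem : aeval (twGen O p m r i) (P %ₘ Φ) - x ∈ ramI O p m r i := by
    have hΦI : aeval (twGen O p m r i) Φ ∈ ramI O p m r i := by
      rw [hΦ, map_sum]
      simp only [map_pow, aeval_X]
      exact Ideal.subset_span (Or.inl rfl)
    have e := congrArg (aeval (twGen O p m r i)) (modByMonic_add_div P Φ)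
    rw [map_add, map_mul] at e
    rw [show aeval (twGen O p m r i) (P %ₘ Φ) - x =
      -(x - aeval (twGen O p m r i) P) -
        aeval (twGen O p m r i) Φ * aeval (twGen O p m r i) (P /ₘ Φ) by rw [← e]; ring]
    exact sub_mem (neg_mem hP) (Ideal.mul_mem_right _ _ hΦI)
  suffices h0 : P %ₘ Φ = 0 by
    rw [h0, map_zero, zero_sub] at hmem
    exact neg_mem_iff.mp hmem
  by_contra hne
  have hroot : ∀ ζ ∈ primitiveRoots p ℂ, ζ ∈ ((P %ₘ Φ).map ι).roots := fun ζ hζ => by
    rw [mem_primitiveRoots hp.pos] at hζ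
    have hnm : (P %ₘ Φ).map ι ≠ 0 := (Polynomial.map_ne_zero_iff hι).2 hne
    rw [mem_roots hnm, IsRoot.def, eval_map]
    have h1 := ramI_le_ker ι i hζ hm hp.one_lt hmem
    rw [RingHom.mem_ker, map_sub, h ζ hζ, sub_zero, aeval_def, hom_eval₂,
      ramChar_twGen ι i hζ hm hp.one_lt, if_pos rfl] at h1
    rwa [show (ramChar ι i hζ hm).comp (algebraMap O _) = ι from
      RingHom.ext fun c => ramChar_algebraMap ι i hζ hm c] at h1
  have hcard : (primitiveRoots p ℂ).card ≤ Multiset.card ((P %ₘ Φ).map ι).roots :=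
    Multiset.card_le_card ((Multiset.le_iff_subset (primitiveRoots p ℂ).nodup).2 hroot)
  rw [Complex.card_primitiveRoots, Nat.totient_prime hp] at hcard
  have h2 : ((P %ₘ Φ).map ι).natDegree ≤ (P %ₘ Φ).natDegree := natDegree_map_le
  have h3 : (P %ₘ Φ).natDegree < Φ.natDegree :=
    natDegree_modByMonic_lt P hΦm fun h1 => by
      rw [h1, natDegree_one] at hdeg
      have := hp.two_le
      omega
  have h4 := card_roots' ((P %ₘ Φ).map ι)
  omega

end Char

/-- Membership in `I • ⊤` for a free module is read off coordinates. -/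
theorem mem_smul_top_of_coord {R M κ : Type*} [CommRing R] [AddCommGroup M] [Module R M]
    (b : Module.Basis κ R M) {I : Ideal R} {x : M} (h : ∀ j, b.coord j x ∈ I) :
    x ∈ I • (⊤ : Submodule R M) := by
  rw [← b.linearCombination_repr x, Finsupp.linearCombination_apply]
  exact Submodule.sum_mem _ fun j _ => Submodule.smul_mem_smul (h j) Submodule.mem_top

/-- Coordinates of an element of `I • ⊤`. -/
theorem coord_mem_of_mem_smul_top {R M : Type*} [CommRing R] [AddCommGroup M] [Module R M]
    (f : M →ₗ[R] R) {I : Ideal R} {x : M} (h : x ∈ I • (⊤ : Submodule R M)) : f x ∈ I := by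
  refine Submodule.smul_induction_on h (fun r hr y _ => ?_) fun y z hy hz => ?_
  · rw [map_smul, smul_eq_mul]
    exact Ideal.mul_mem_right _ _ hr
  · rw [map_add]
    exact add_mem hy hz

end Fermat.Agent.R59.TWRam
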