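import Fermat.Agent.TW.Mod.Packaged

/-!
# Twisted classes pushed along a ring map, and operators with partners

`pushH1 χ ψ` sends a twisted class over `R` to one over `S`. An endomorphism with a partner in the
algebra generated by the Hecke operators is scalar on a common eigenvector.
-/

set_option autoImplicit false

noncomputable section

namespace Fermat.Agent.R59.TWRam

open Fermat.Agent.TW.Mod CongruenceSubgroup
open Fermat.Agent.HK (HeckeIdx heckeCoc)

section Push

variable {M : ℕ} {R : Type} [CommRing R] (χ : (ZMod M)ˣ →* Rˣ) {S : Type} [CommRing S]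
  (ψ : R →+* S)

/-- The pushed character. -/
abbrev pushChar : (ZMod M)ˣ →* Sˣ := (Units.map (ψ : R →* S)).comp χ

theorem coe_chiPrime_pushChar (ℓ : ℕ) :
    (chiPrime (pushChar χ ψ) ℓ : S) = ψ (chiPrime χ ℓ : R) := by
  unfold chiPrime
  split_ifs <;> simp

theorem coe_epsOf_pushChar (g : Gamma0 M) :
    (epsOf (pushChar χ ψ) g : S) = ψ (epsOf χ g : R) := by
  rw [epsOf_apply, epsOf_apply]
  rfl

/-- Derivations pushed along `ψ`. -/
def pushDer : Der (epsOf χ) R →+ Der (epsOf (pushChar χ ψ)) S where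
  toFun c := ⟨fun g => ψ ((c : Gamma0 M → R) g), fun g h => by
    show ψ _ = ψ _ + _ • ψ _
    rw [Der.map_mul c, map_add, smul_eq_mul, smul_eq_mul, map_mul, coe_epsOf_pushChar]⟩
  map_zero' := Subtype.ext (funext fun _ => map_zero ψ)
  map_add' _ _ := Subtype.ext (funext fun _ => map_add ψ _ _)

@[simp] theorem pushDer_apply (c : Der (epsOf χ) R) (g : Gamma0 M) :
    (pushDer χ ψ c : Gamma0 M → S) g = ψ ((c : Gamma0 M → R) g) := rfl

theorem pushDer_cobound (a : R) :
    pushDer χ ψ (cobound (epsOf χ) R a) = cobound (epsOf (pushChar χ ψ)) S (ψ a) := by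
  ext g
  rw [pushDer_apply, cobound_apply, cobound_apply, smul_eq_mul, smul_eq_mul, map_sub, map_mul,
    coe_epsOf_pushChar]

theorem pushDer_smul (r : R) (c : Der (epsOf χ) R) :
    pushDer χ ψ (r • c) = ψ r • pushDer χ ψ c :=
  Subtype.ext (funext fun _ => map_mul ψ _ _)

/-- Classes pushed along `ψ`. -/
def pushH1 : H1 (epsOf χ) R →+ H1 (epsOf (pushChar χ ψ)) S :=
  QuotientAddGroup.map (LinearMap.range (cobound (epsOf χ) R)).toAddSubgroup
    (LinearMap.range (cobound (epsOf (pushChar χ ψ)) S)).toAddSubgroup (pushDer χ ψ) (by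
      rintro _ ⟨a, rfl⟩
      exact ⟨ψ a, (pushDer_cobound χ ψ a).symm⟩)

theorem pushH1_mk (c : Der (epsOf χ) R) :
    pushH1 χ ψ (Submodule.Quotient.mk c) = Submodule.Quotient.mk (pushDer χ ψ c) := rfl

theorem pushH1_smul (r : R) (x : H1 (epsOf χ) R) :
    pushH1 χ ψ (r • x) = ψ r • pushH1 χ ψ x := by
  induction x using Submodule.Quotient.induction_on with
  | _ c =>
    rw [← Submodule.Quotient.mk_smul, pushH1_mk, pushH1_mk, pushDer_smul,
      Submodule.Quotient.mk_smul]

theorem pushH1_h1T (ℓ : ℕ) [Fact ℓ.Prime] (x : H1 (epsOf χ) R) :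
    pushH1 χ ψ (h1T χ R ℓ x) = h1T (pushChar χ ψ) S ℓ (pushH1 χ ψ x) := by
  induction x using Submodule.Quotient.induction_on with
  | _ c =>
    rw [h1T_mk, pushH1_mk, pushH1_mk, h1T_mk]
    congr 1
    ext g
    show ψ (∑ i : HeckeIdx M ℓ, heckeWeight χ i • (c : Gamma0 M → R) (heckeCoc g i)) =
      ∑ i : HeckeIdx M ℓ, heckeWeight (pushChar χ ψ) i • ψ ((c : Gamma0 M → R) (heckeCoc g i))
    rw [map_sum]
    refine Finset.sum_congr rfl fun i _ => ?_
    rw [smul_eq_mul, smul_eq_mul, map_mul]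
    congr 1
    induction i using HeckeIdx.cases_upper_diag with
    | h1 k => rw [heckeWeight_upper, heckeWeight_upper, map_one]
    | h2 hM => rw [heckeWeight_diag, heckeWeight_diag, coe_chiPrime_pushChar]

end Push

section Partner

variable {O R : Type} [CommRing O] [CommRing R] [Algebra O R] {X : Type} [AddCommGroup X]
  [Module R X] [Module O X] [IsScalarTower O R X] {S V : Type} [CommRing S] [AddCommGroup V]
  [Module S V] (ψ : R →+* S) (P : X →+ V) (hP : ∀ (r : R) x, P (r • x) = ψ r • P x)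
  (𝒜 : Subalgebra S (Module.End S V))

include hP in
/-- Endomorphisms which `P` carries to an element of `𝒜`. -/
def partnerAlg : Subalgebra O (Module.End R X) where
  carrier := {a | ∃ F ∈ 𝒜, ∀ x, P (a x) = F (P x)}
  mul_mem' := by
    rintro a b ⟨F, hF, ha⟩ ⟨G, hG, hb⟩
    exact ⟨F * G, mul_mem hF hG, fun x => by rw [Module.End.mul_apply, ha, hb]; rfl⟩
  add_mem' := by
    rintro a b ⟨F, hF, ha⟩ ⟨G, hG, hb⟩
    exact ⟨F + G, add_mem hF hG, fun x => by rw [LinearMap.add_apply, map_add, ha, hb]; rfl⟩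
  algebraMap_mem' c := by
    refine ⟨algebraMap S _ (ψ (algebraMap O R c)), 𝒜.algebraMap_mem _, fun x => ?_⟩
    rw [Module.algebraMap_end_apply, Module.algebraMap_end_apply, ← hP,
      IsScalarTower.algebraMap_smul]

theorem smul_mem_partnerAlg {a : Module.End R X} (ha : a ∈ partnerAlg (O := O) ψ P hP 𝒜) (r : R) :
    r • a ∈ partnerAlg (O := O) ψ P hP 𝒜 := by
  obtain ⟨F, hF, ha⟩ := ha
  exact ⟨ψ r • F, 𝒜.smul_mem hF _, fun x => by
    rw [LinearMap.smul_apply, hP, ha, LinearMap.smul_apply]⟩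

theorem mem_partnerAlg {a : Module.End R X} :
    a ∈ partnerAlg (O := O) ψ P hP 𝒜 ↔ ∃ F ∈ 𝒜, ∀ x, P (a x) = F (P x) := Iff.rfl

end Partner

section Eigen

/-- A commuting family has a common eigenvector in every nonzero stable subspace. -/
theorem exists_common_eigenvector {K : Type*} [Field K] [IsAlgClosed K] {V : Type*}
    [AddCommGroup V] [Module K V] [FiniteDimensional K V] {ι : Type*} (F : ι → Module.End K V)
    (hF : ∀ i j, Commute (F i) (F j)) {W : Submodule K V} (hW : W ≠ ⊥)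
    (hst : ∀ i, ∀ x ∈ W, F i x ∈ W) :
    ∃ v ∈ W, v ≠ 0 ∧ ∀ i, ∃ a : K, F i v = a • v := by
  obtain ⟨n, hn⟩ : ∃ n, Module.finrank K W = n := ⟨_, rfl⟩
  induction n using Nat.strong_induction_on generalizing W with
  | _ n ih =>
    by_cases hsc : ∀ i, ∃ a : K, ∀ x ∈ W, F i x = a • x
    · obtain ⟨v, hv, hv0⟩ := (Submodule.ne_bot_iff W).1 hW
      exact ⟨v, hv, hv0, fun i => ⟨(hsc i).choose, (hsc i).choose_spec v hv⟩⟩
    · push Not at hsc
      obtain ⟨i, hi⟩ := hsc
      have : Nontrivial W := Submodule.nontrivial_iff_ne_bot.2 hW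
      obtain ⟨μ, hμ⟩ := Module.End.exists_eigenvalue ((F i).restrict (hst i))
      obtain ⟨w, hw⟩ := hμ.exists_hasEigenvector
      let W' := W ⊓ Module.End.eigenspace (F i) μ
      have hW' : W' ≠ ⊥ := (Submodule.ne_bot_iff _).2 ⟨w, ⟨w.2, Module.End.mem_eigenspace_iff.2
        (congrArg Subtype.val hw.apply_eq_smul)⟩, fun h => hw.2 (Subtype.ext h)⟩
      obtain ⟨x, hxW, hx⟩ := hi μ
      have hlt : W' < W := lt_of_le_of_ne inf_le_left fun h =>
        hx (Module.End.mem_eigenspace_iff.1 (h.symm ▸ hxW : x ∈ W').2)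
      have hst' : ∀ j, ∀ x ∈ W', F j x ∈ W' := fun j x hx' => by
        refine ⟨hst j x hx'.1, Module.End.mem_eigenspace_iff.2 ?_⟩
        rw [← Module.End.mul_apply, (hF i j).eq, Module.End.mul_apply,
          Module.End.mem_eigenspace_iff.1 hx'.2, map_smul]
      obtain ⟨v, hv, hv0, hev⟩ :=
        ih _ (hn ▸ Submodule.finrank_lt_finrank_of_lt hlt) hW' hst' rfl
      exact ⟨v, hv.1, hv0, hev⟩

/-- Elements of the generated algebra are scalar on a common eigenvector. -/
theorem exists_scalar_of_mem_adjoin {K : Type*} [Field K] {V : Type*} [AddCommGroup V]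
    [Module K V] {s : Set (Module.End K V)} {v : V} (hv : ∀ f ∈ s, ∃ a : K, f v = a • v)
    {f : Module.End K V} (hf : f ∈ Algebra.adjoin K s) : ∃ a : K, f v = a • v := by
  induction hf using Algebra.adjoin_induction with
  | mem f hf => exact hv f hf
  | algebraMap c => exact ⟨c, by rw [Module.algebraMap_end_apply]⟩
  | add f g _ _ hf hg =>
    obtain ⟨a, ha⟩ := hf
    obtain ⟨b, hb⟩ := hg
    exact ⟨a + b, by rw [LinearMap.add_apply, ha, hb, add_smul]⟩
  | mul f g _ _ hf hg =>
    obtain ⟨a, ha⟩ := hf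
    obtain ⟨b, hb⟩ := hg
    exact ⟨b * a, by rw [Module.End.mul_apply, hb, map_smul, ha, smul_smul]⟩

end Eigen

end Fermat.Agent.R59.TWRam
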