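import Fermat.Agent.R59.TWData
import Fermat.Agent.R59.TWRamified.Ideal
import Fermat.Agent.R59.TWRamified.Push
import Fermat.Agent.TW.Mod.JacobiSum

/-!
# Levels and characters of a Taylor–Wiles datum at one auxiliary prime
-/

set_option autoImplicit false
set_option synthInstance.maxHeartbeats 400000

noncomputable section

open IsLocalRing CongruenceSubgroup Fermat.Agent.TW.Mod
open scoped MatrixGroups

namespace Fermat.Agent.R59.TWRam

variable {W : WeierstrassCurve ℤ} {p : ℕ} {k : Kind} {U : Setup W p k} {m r : ℕ}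
  (T : TWPrimes U m r)

theorem prime_of_mem_ram {q : ℕ} (h : q ∈ ramPrimes W p) : q.Prime := by
  classical
  exact Nat.prime_of_mem_primeFactors (Finset.mem_filter.mp h).1

theorem minSet_subset_fullSet' {q : ℕ} (h : q ∈ minSet W p) : q ∈ fullSet W p := by
  rcases Finset.mem_insert.mp h with rfl | h
  · exact Finset.mem_insert_self _ _
  · exact Finset.mem_insert_of_mem (Finset.mem_union_left _ h)

theorem qv_notMem_minSet (i : Fin r) : T.qv i ∉ (↑(minSet W p) : Set ℕ) :=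
  fun h => T.notMem_fullSet i (minSet_subset_fullSet' (Finset.mem_coe.mp h))

/-- The auxiliary prime as a Hecke index. -/
def qIdx (i : Fin r) : PrimeIdx (↑(minSet W p) : Set ℕ) :=
  ⟨T.qv i, T.prime i, qv_notMem_minSet T i⟩

/-- The exceptional set of primes. -/
abbrev badSet : Finset ℕ := insert p (ramPrimes W p ∪ T.primes)

theorem mem_primes (i : Fin r) : T.qv i ∈ T.primes :=
  Finset.mem_image_of_mem _ (Finset.mem_univ i)

theorem notMem_minSet_of_notMem_badSet {l : ℕ} (h : l ∉ badSet T) :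
    l ∉ (↑(minSet W p) : Set ℕ) := fun hl => h <| by
  rcases Finset.mem_insert.mp (Finset.mem_coe.mp hl) with rfl | h'
  · exact Finset.mem_insert_self _ _
  · exact Finset.mem_insert_of_mem (Finset.mem_union_left _ h')

/-- The level prime to the `i`-th prime. -/
def otherLevel (i : Fin r) : ℕ := baseLevel W p k * ∏ j ∈ Finset.univ.erase i, T.qv j

theorem level_eq (i : Fin r) : T.level = otherLevel T i * T.qv i := by
  rw [otherLevel, mul_assoc, Finset.prod_erase_mul _ _ (Finset.mem_univ i)]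

theorem mem_of_dvd_prod {A : Finset ℕ} (hA : ∀ q ∈ A, q.Prime) {l : ℕ} (hl : l.Prime)
    (h : l ∣ ∏ q ∈ A, q) : l ∈ A := by
  obtain ⟨q, hq, hlq⟩ := (Nat.Prime.prime hl).exists_mem_finset_dvd h
  rwa [(Nat.prime_dvd_prime_iff_eq hl (hA q hq)).mp hlq]

theorem mem_of_dvd_baseLevel (hp : p.Prime) {l : ℕ} (hl : l.Prime) (h : l ∣ baseLevel W p k) :
    l ∈ minSet W p := by
  rcases hl.dvd_mul.mp h with h | h
  · exact Finset.mem_insert_of_mem (mem_of_dvd_prod (fun _ => prime_of_mem_ram) hl h)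
  · rw [(Nat.prime_dvd_prime_iff_eq hl hp).mp (hl.dvd_of_dvd_pow h)]
    exact Finset.mem_insert_self _ _

theorem mem_badSet_of_dvd_level (hp : p.Prime) {l : ℕ} (hl : l.Prime) (h : l ∣ T.level) :
    l ∈ badSet T := by
  rcases hl.dvd_mul.mp h with h | h
  · rcases Finset.mem_insert.mp (mem_of_dvd_baseLevel hp hl h) with rfl | h
    · exact Finset.mem_insert_self _ _
    · exact Finset.mem_insert_of_mem (Finset.mem_union_left _ h)
  · obtain ⟨j, -, hj⟩ := (Nat.Prime.prime hl).exists_mem_finset_dvd h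
    rw [(Nat.prime_dvd_prime_iff_eq hl (T.prime j)).mp hj]
    exact Finset.mem_insert_of_mem (Finset.mem_union_right _ (mem_primes T j))

theorem mem_badSet_of_dvd_mixLevel (hp : p.Prime) (k' : Kind) {l : ℕ} (hl : l.Prime)
    (h : l ∣ mixLevel p k' (ramPrimes W p) T.primes) : l ∈ badSet T := by
  rcases hl.dvd_mul.mp h with h | h
  · rcases hl.dvd_mul.mp h with h | h
    · exact Finset.mem_insert_of_mem
        (Finset.mem_union_left _ (mem_of_dvd_prod (fun _ => prime_of_mem_ram) hl h))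
    · refine Finset.mem_insert_of_mem (Finset.mem_union_right _
        (mem_of_dvd_prod (fun q hq => ?_) hl (hl.dvd_of_dvd_pow h)))
      obtain ⟨j, -, rfl⟩ := Finset.mem_image.mp hq
      exact T.prime j
  · rw [(Nat.prime_dvd_prime_iff_eq hl hp).mp (hl.dvd_of_dvd_pow h)]
    exact Finset.mem_insert_self _ _

theorem not_dvd_otherLevel (hp : p.Prime) (i : Fin r) : ¬ T.qv i ∣ otherLevel T i := by
  intro h
  rcases (T.prime i).dvd_mul.mp h with h | h
  · exact qv_notMem_minSet T i (Finset.mem_coe.mpr (mem_of_dvd_baseLevel hp (T.prime i) h))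
  · obtain ⟨j, hj, hd⟩ := (Nat.Prime.prime (T.prime i)).exists_mem_finset_dvd h
    exact (Finset.mem_erase.mp hj).1
      (T.qv_injective ((Nat.prime_dvd_prime_iff_eq (T.prime i) (T.prime j)).mp hd).symm)

theorem neZero_otherLevel [NeZero T.level] (i : Fin r) : NeZero (otherLevel T i) :=
  ⟨fun h => NeZero.ne T.level (by rw [level_eq T i, h, zero_mul])⟩

/-- A unit is the lower right entry of an element of `Γ₀`. -/
theorem exists_gamma0_unit {M : ℕ} (u : (ZMod M)ˣ) :
    ∃ g : Gamma0 M, (Gamma0Map M).toHomUnits g = u := by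
  obtain ⟨d, hd⟩ := ZMod.intCast_surjective (u : ZMod M)
  obtain ⟨a, ha⟩ := ZMod.intCast_surjective ((u⁻¹ : (ZMod M)ˣ) : ZMod M)
  have h1 : (M : ℤ) ∣ a * d - 1 := by
    rw [← ZMod.intCast_zmod_eq_zero_iff_dvd, Int.cast_sub, Int.cast_mul, Int.cast_one, hd, ha,
      Units.inv_mul, sub_self]
  obtain ⟨b, hb⟩ := h1
  let g : SL(2, ℤ) := ⟨!![a, b; (M : ℤ), d], by
    rw [Matrix.det_fin_two_of]
    linear_combination hb⟩
  refine ⟨⟨g, by rw [Gamma0_mem]; simp [g]⟩, Units.ext ?_⟩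
  show ((d : ℤ) : ZMod M) = _
  exact hd

section Char

variable [NeZero p] (ι : U.𝒪 →+* ℂ) (i : Fin r) {ζ : ℂ} (hζ : IsPrimitiveRoot ζ p) (hm : 0 < m)

/-- The character at the `i`-th prime on a component. -/
def chiZ : (ZMod (T.qv i))ˣ →* ℂˣ :=
  (Units.map (ramChar (m := m) ι i hζ hm : TWAlg U.𝒪 p m r →* ℂ)).comp (T.etaAt i)

theorem coe_chiZ (u : (ZMod (T.qv i))ˣ) :
    (chiZ T ι i hζ hm u : ℂ) = ζ ^ (Multiplicative.toAdd (T.char i u)).val := by
  show ramChar ι i hζ hm (MonoidAlgebra.of U.𝒪 _ (Pi.mulSingle i (T.char i u))) = _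
  rw [ramChar_of, Pi.mulSingle_eq_same]

theorem chiZ_gen (hp : 1 < p) : (chiZ T ι i hζ hm (T.gen i) : ℂ) = ζ := by
  have : Fact (1 < p ^ m) := ⟨Nat.one_lt_pow hm.ne' hp⟩
  rw [coe_chiZ, T.char_gen, toAdd_ofAdd, ZMod.val_one, pow_one]

theorem chiZ_gen_sq_ne (hp : p.Prime) (hp2 : p ≠ 2) : chiZ T ι i hζ hm (T.gen i) ^ 2 ≠ 1 :=
  fun h => by
    have h1 := congrArg (Units.val : ℂˣ → ℂ) h
    rw [Units.val_pow_eq_pow_val, chiZ_gen T ι i hζ hm hp.one_lt, Units.val_one] at h1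
    exact hp2 ((Nat.prime_dvd_prime_iff_eq hp Nat.prime_two).mp ((hζ.pow_eq_one_iff_dvd 2).mp h1))

theorem ramChar_etaAt_of_ne {j : Fin r} (hj : j ≠ i) (u : (ZMod (T.qv j))ˣ) :
    ramChar ι i hζ hm (T.etaAt j u : TWAlg U.𝒪 p m r) = 1 := by
  show ramChar ι i hζ hm (MonoidAlgebra.of U.𝒪 _ (Pi.mulSingle j (T.char j u))) = _
  rw [ramChar_of, Pi.mulSingle_eq_of_ne hj.symm, toAdd_one, ZMod.val_zero, pow_zero]

theorem ramChar_eta (u : (ZMod T.level)ˣ) :
    ramChar ι i hζ hm (T.eta u : TWAlg U.𝒪 p m r) =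
      (chiZ T ι i hζ hm (ZMod.unitsMap (T.dvd_level i) u) : ℂ) := by
  rw [TWPrimes.eta, MonoidHom.finsetProd_apply, Units.coe_prod, map_prod,
    Finset.prod_eq_single i (fun j _ hj => by
      rw [MonoidHom.comp_apply]; exact ramChar_etaAt_of_ne T ι i hζ hm hj _) (by simp)]
  rfl

theorem pushChar_chi (u : (ZMod T.level)ˣ) :
    pushChar T.chi (ramChar ι i hζ hm) u = chiZ T ι i hζ hm (ZMod.unitsMap (T.dvd_level i) u) ^ 2 :=
  Units.ext (by
    rw [Units.val_pow_eq_pow_val, ← ramChar_eta, ← map_pow, ← Units.val_pow_eq_pow_val]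
    rfl)

/-- The value at a prime away from the level. -/
theorem ramChar_chiPrime_eta_inv {l : ℕ} (hl : l.Prime) (hlM : ¬ l ∣ T.level) :
    ramChar ι i hζ hm (((chiPrime T.eta l)⁻¹ : (TWAlg U.𝒪 p m r)ˣ) : TWAlg U.𝒪 p m r) =
      (haveI := Fact.mk (T.prime i); extChar (chiZ T ι i hζ hm)⁻¹ (l : ZMod (T.qv i))) := by
  have := Fact.mk (T.prime i)
  have hc : l.Coprime T.level := hl.coprime_iff_not_dvd.mpr hlM
  have hu : (l : ZMod (T.qv i)) =
      ((ZMod.unitsMap (T.dvd_level i) (ZMod.unitOfCoprime l hc) : (ZMod (T.qv i))ˣ) :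
        ZMod (T.qv i)) := by
    rw [ZMod.unitsMap_def, Units.coe_map, ZMod.coe_unitOfCoprime]
    exact (map_natCast (ZMod.castHom (T.dvd_level i) (ZMod (T.qv i))) l).symm
  rw [chiPrime, dif_pos hc, ← map_inv T.eta, ramChar_eta, map_inv, map_inv, hu, extChar_coe,
    MonoidHom.inv_apply]

end Char

end Fermat.Agent.R59.TWRam
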